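import Fermat.Agent.MertensOmega.GaussMean

/-!
# `∑ 1 / |ρ ζ' ρ|` diverges

If it converged with all zeros simple, `√ε` times the smoothed formula at `y = log 2` would tend to
`√π μ 2` on the right line, to `0` on the left line and to `0` on the zeros.
-/

set_option autoImplicit false

noncomputable section

namespace FA.MertensOmega

open Complex Filter Topology MeasureTheory Set FA.RiemannMangoldt FA.ExplicitFormula
open FA.VonKoch (invZeta moebius_series)
open scoped Real ArithmeticFunction.Moebius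

variable {ε : ℝ}

theorem tendsto_sqrt_lineJ_three :
    Tendsto (fun ε : ℝ => ((√ε : ℝ) : ℂ) * lineJ ε (Real.log 2) 3) (𝓝[>] 0)
      (𝓝 (-((√π : ℝ) : ℂ))) := by
  have h := tendsto_sqrt_series (a := fun n => ((μ n : ℤ) : ℂ)) (H := invZeta) (fun n => by
      rw [Complex.norm_intCast]; exact_mod_cast ArithmeticFunction.abs_moebius_le_one)
    (by simp) (fun s hs => (moebius_series (s := s) (by rw [hs]; norm_num)).2) two_pos
  rw [ArithmeticFunction.moebius_apply_prime Nat.prime_two] at h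
  simpa [lineJ, smoothed] using h

theorem tendsto_sqrt_lineJ_left (y : ℝ) :
    Tendsto (fun ε : ℝ => ((√ε : ℝ) : ℂ) * lineJ ε y (-1)) (𝓝[>] 0) (𝓝 0) := by
  obtain ⟨C, hC0, hC⟩ := exists_invZeta_left
  refine tendsto_sqrt_line_zero (H := invZeta) (C := C) (fun t => (hC t).trans ?_) y
  rw [div_eq_mul_inv, ← Real.rpow_neg_one (1 + |t|)]
  exact mul_le_mul_of_nonneg_left
    (Real.rpow_le_rpow_of_exponent_le (by linarith [abs_nonneg t]) (by norm_num)) hC0

theorem tendsto_sqrt_residues (y : ℝ)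
    (hsum : Summable fun ρ : {ρ : ℂ // xiFn ρ = 0} =>
      ‖((ρ : ℂ) * deriv riemannZeta ρ)⁻¹‖) :
    Tendsto (fun ε : ℝ => ∑' ρ : {ρ : ℂ // xiFn ρ = 0}, ((√ε : ℝ) : ℂ) * smoothRes ε y ρ)
      (𝓝[>] 0) (𝓝 0) := by
  have h := tendsto_tsum_of_dominated_convergence (𝓕 := 𝓝[>] (0 : ℝ))
    (f := fun ε (ρ : {ρ : ℂ // xiFn ρ = 0}) => ((√ε : ℝ) : ℂ) * smoothRes ε y ρ)
    (g := fun _ => (0 : ℂ)) (hsum.mul_left (2 * Real.exp (1 + |y|))) (fun ρ => ?_) ?_
  · simpa using h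
  · have hc : Continuous fun ε : ℝ => ((√ε : ℝ) : ℂ) * smoothRes ε y (ρ : ℂ) := by
      unfold smoothRes gaussKer
      fun_prop
    have := (hc.tendsto 0).mono_left (nhdsWithin_le_nhds (s := Ioi (0 : ℝ)))
    simpa using this
  · filter_upwards [Ioc_mem_nhdsGT (zero_lt_one' ℝ)] with ε hε ρ
    rw [norm_mul, norm_real, Real.norm_of_nonneg (Real.sqrt_nonneg _)]
    exact norm_smoothRes_le hε.1 hε.2 ρ.2

/-- **With simple zeros, `∑ 1 / |ρ ζ' ρ|` diverges.** -/
theorem not_summable_resid (hs : ∀ ρ : ℂ, xiFn ρ = 0 → deriv riemannZeta ρ ≠ 0) :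
    ¬Summable fun ρ : {ρ : ℂ // xiFn ρ = 0} => ‖((ρ : ℂ) * deriv riemannZeta ρ)⁻¹‖ := by
  intro hsum
  have h := (tendsto_sqrt_lineJ_three.sub (tendsto_sqrt_lineJ_left (Real.log 2))).sub
    ((tendsto_sqrt_residues (Real.log 2) hsum).const_mul (2 * π : ℂ))
  rw [sub_zero, mul_zero, sub_zero] at h
  have h0 : -((√π : ℝ) : ℂ) = 0 := by
    refine tendsto_nhds_unique h (tendsto_const_nhds.congr' ?_)
    filter_upwards [Ioc_mem_nhdsGT (zero_lt_one' ℝ)] with ε hε
    rw [tsum_mul_left, mul_left_comm, ← lineJ_sub hε.1 hε.2 hs hsum]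
    ring
  rw [neg_eq_zero, ofReal_eq_zero] at h0
  exact (Real.sqrt_pos.2 Real.pi_pos).ne' h0

end FA.MertensOmega

end
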