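import Fermat.Agent.MertensOmega.Kernel
import Fermat.Agent.MertensOmega.Divergence
import Mathlib.LinearAlgebra.LinearIndependent.Basic

/-!
# Ingham's theorem

If the positive ordinates of the zeros on the line are linearly independent over `ℚ`, a bound
`e M n ≤ C √n` makes all zeros simple and `∑ 1 / |ρ ζ' ρ| ≤ 2 C`, which it is not.
-/

set_option autoImplicit false

noncomputable section

open Complex Filter Topology
open FA.RiemannMangoldt FA.ExplicitFormula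
open FA.OneSided (moebiusSum)
open scoped ComplexConjugate

namespace FA.MertensOmega

variable {C e : ℝ} {N : ℕ}

theorem exists_cut (h : ∀ᶠ n : ℕ in atTop, e * moebiusSum n ≤ C * √n) :
    ∃ N, 1 ≤ N ∧ ∀ n, N ≤ n → e * moebiusSum n ≤ C * √n := by
  obtain ⟨N, hN⟩ := eventually_atTop.1 h
  exact ⟨N + 1, Nat.le_add_left 1 N, fun n hn => hN n (Nat.le_of_succ_le hn)⟩

theorem eq_onLine {ρ : ℂ} (h : ρ.re = 1 / 2) : ρ = onLine ρ.im :=
  Complex.ext (by rw [h, onLine_re]) (by rw [onLine_im])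

theorem zero_data (hRH : RiemannHypothesis) {ρ : ℂ} (hρ : xiFn ρ = 0) :
    ρ = onLine ρ.im ∧ ρ.im ≠ 0 ∧ riemannZeta (onLine ρ.im) = 0 := by
  have h := eq_onLine (FA.XiProduct.re_eq_half hRH hρ)
  obtain ⟨a, b⟩ := xiFn_zero_strip hρ
  have hρ1 : ρ ≠ 1 := fun e => by rw [e] at b; simp at b
  exact ⟨h, im_ne_zero_of_zero hρ, h ▸ (xiFn_eq_zero_iff a hρ1).1 hρ⟩

/-- **A one-sided bound makes every zero simple, with residue at most `C`.** -/
theorem simple_of_bound (he : |e| = 1) (h : ∀ᶠ n : ℕ in atTop, e * moebiusSum n ≤ C * √n) :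
    RiemannHypothesis ∧ ∀ ρ : ℂ, xiFn ρ = 0 →
      deriv riemannZeta ρ ≠ 0 ∧ ‖(ρ * deriv riemannZeta ρ)⁻¹‖ ≤ C := by
  obtain ⟨N, hN1, hN⟩ := exists_cut h
  have he0 : e ≠ 0 := fun h0 => by simp [h0] at he
  have hRH := riemannHypothesis_of_bound he0 hN
  refine ⟨hRH, fun ρ hρ => ?_⟩
  obtain ⟨h1, h2, h3⟩ := zero_data hRH hρ
  have hr := resid_le hN1 he0 hN h2 h3
  rw [he, one_mul, resid, ← h1] at hr
  exact ⟨h1 ▸ deriv_ne_zero hN1 he0 hN h2 h3, hr⟩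

/-- `M n = Ω± (√n)`. -/
theorem exists_frequently_gt : ∃ c : ℝ, 0 < c ∧ ∀ e : ℝ, |e| = 1 →
    ∃ᶠ n : ℕ in atTop, c * √n < e * moebiusSum n := by
  obtain ⟨γ, hγ⟩ := FA.HardyZeros.infinite_zeros.nonempty
  have hz : riemannZeta (onLine γ) = 0 := hγ
  have hxi : xiFn (onLine γ) = 0 :=
    (xiFn_eq_zero_iff (by rw [onLine_re]; norm_num) (onLine_ne_one γ)).2 hz
  by_cases hd : deriv riemannZeta (onLine γ) = 0
  · refine ⟨1, one_pos, fun e he h => ?_⟩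
    simp only [not_lt] at h
    exact ((simple_of_bound he h).2 _ hxi).1 hd
  · have hr : 0 < ‖(onLine γ * deriv riemannZeta (onLine γ))⁻¹‖ :=
      norm_pos_iff.2 (inv_ne_zero (mul_ne_zero (onLine_ne_zero γ) hd))
    refine ⟨‖(onLine γ * deriv riemannZeta (onLine γ))⁻¹‖ / 2, half_pos hr, fun e he h => ?_⟩
    simp only [not_lt] at h
    linarith [((simple_of_bound he h).2 _ hxi).2]

/-- The finite form. -/
theorem sum_resid_le_finset (he : |e| = 1) (h : ∀ᶠ n : ℕ in atTop, e * moebiusSum n ≤ C * √n)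
    (S : Finset ℝ) (hS : ∀ x ∈ S, x ≠ 0 ∧ riemannZeta (onLine x) = 0)
    (hfree : ∀ c : ℝ → ℤ, (∀ x ∈ S, |c x| ≤ 1) → (∃ x ∈ S, ∃ y ∈ S, x ≠ y ∧ c x ≠ 0 ∧ c y ≠ 0) →
      ∑ x ∈ S, (c x : ℝ) * x ≠ 0 ∧ riemannZeta (onLine (∑ x ∈ S, (c x : ℝ) * x)) ≠ 0) :
    ∑ x ∈ S, ‖resid x‖ ≤ C := by
  classical
  obtain ⟨N, hN1, hN⟩ := exists_cut h
  have he0 : e ≠ 0 := fun h0 => by simp [h0] at he
  have hmain := sum_resid_le (ι := {x : ℝ // x ∈ S}) hN1 he0 hN (fun x => (x : ℝ))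
    (fun x => (hS x x.2).1) (fun x => (hS x x.2).2) fun ε hε => ?_
  · rwa [he, one_mul, Finset.sum_coe_sort S fun x => ‖resid x‖] at hmain
  obtain ⟨i, j, hij, hi, hj⟩ := hε
  obtain ⟨c, hc⟩ : ∃ c : ℝ → ℤ, c = fun x =>
      if hx : x ∈ S then (![0, 1, -1] : Fin 3 → ℤ) (ε ⟨x, hx⟩) else 0 := ⟨_, rfl⟩
  have hval : ∀ k : Fin 3, (((![0, 1, -1] : Fin 3 → ℤ) k : ℤ) : ℝ) = sgn k := fun k => by
    fin_cases k <;> simp [sgn]
  have hne : ∀ k : Fin 3, k ≠ 0 → (![0, 1, -1] : Fin 3 → ℤ) k ≠ 0 := by decide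
  have hbd : ∀ k : Fin 3, |(![0, 1, -1] : Fin 3 → ℤ) k| ≤ 1 := by decide
  have hf : freq (fun x : {x : ℝ // x ∈ S} => (x : ℝ)) ε = ∑ x ∈ S, (c x : ℝ) * x := by
    rw [freq, ← Finset.sum_coe_sort S fun x => (c x : ℝ) * x]
    refine Finset.sum_congr rfl fun x _ => ?_
    simp only [hc, x.2, dif_pos, Subtype.coe_eta, hval]
  rw [hf]
  refine hfree c (fun x hx => ?_) ⟨i, i.2, j, j.2, fun e => hij (Subtype.ext e), ?_, ?_⟩
  · simp only [hc, hx, dif_pos]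
    exact hbd _
  · simp only [hc, i.2, dif_pos, Subtype.coe_eta]
    exact hne _ hi
  · simp only [hc, j.2, dif_pos, Subtype.coe_eta]
    exact hne _ hj

/-- Independent ordinates have no such relations. -/
theorem free_of_independent
    (hLI : LinearIndependent ℚ fun x : {x : ℝ // 0 < x ∧ riemannZeta (onLine x) = 0} => (x : ℝ))
    (S : Finset ℝ) (hS : ∀ x ∈ S, 0 < x ∧ riemannZeta (onLine x) = 0) (c : ℝ → ℤ)
    (h2 : ∃ x ∈ S, ∃ y ∈ S, x ≠ y ∧ c x ≠ 0 ∧ c y ≠ 0) :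
    ∑ x ∈ S, (c x : ℝ) * x ≠ 0 ∧ riemannZeta (onLine (∑ x ∈ S, (c x : ℝ) * x)) ≠ 0 := by
  classical
  have hrel : ∀ (T : Finset ℝ), (∀ x ∈ T, 0 < x ∧ riemannZeta (onLine x) = 0) →
      ∀ d : ℝ → ℤ, ∑ x ∈ T, (d x : ℝ) * x = 0 → ∀ x ∈ T, d x = 0 := by
    intro T hT d hd x hx
    have h := Fintype.linearIndependent_iff.1
      (hLI.comp (fun y : {y : ℝ // y ∈ T} => ⟨y, hT y y.2⟩) fun a b hab =>
        Subtype.ext (congrArg Subtype.val hab :)) (fun y => (d y : ℚ)) ?_ ⟨x, hx⟩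
    · exact_mod_cast h
    · refine Eq.trans ?_ hd
      rw [← Finset.sum_coe_sort T fun y => (d y : ℝ) * y]
      refine Finset.sum_congr rfl fun y _ => ?_
      simp only [Function.comp_apply]
      rw [Rat.smul_def, Rat.cast_intCast]
  obtain ⟨x, hx, y, hy, hxy, hcx, hcy⟩ := h2
  obtain ⟨w, hw⟩ : ∃ w, w = ∑ x ∈ S, (c x : ℝ) * x := ⟨_, rfl⟩
  rw [← hw]
  have hw0 : w ≠ 0 := fun h => hcx (hrel S hS c (hw ▸ h) x hx)
  refine ⟨hw0, fun hz => ?_⟩
  have hp : 0 < |w| ∧ riemannZeta (onLine |w|) = 0 := by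
    refine ⟨abs_pos.2 hw0, ?_⟩
    rcases abs_choice w with h | h
    · rwa [h]
    · rw [h, ← conj_onLine, riemannZeta_conj, hz, map_zero]
  obtain ⟨s, hs, hsw⟩ : ∃ s : ℤ, s ≠ 0 ∧ (s : ℝ) * |w| = w := by
    rcases abs_choice w with h | h
    · exact ⟨1, one_ne_zero, by rw [h]; simp⟩
    · exact ⟨-1, by norm_num, by rw [h]; simp⟩
  obtain ⟨d, hd⟩ : ∃ d : ℝ → ℤ, d = fun z =>
      (if z ∈ S then c z else 0) - (if z = |w| then s else 0) := ⟨_, rfl⟩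
  have hsum : ∑ z ∈ insert |w| S, (d z : ℝ) * z = 0 := by
    have h1 : ∑ z ∈ insert |w| S, ((if z ∈ S then c z else 0 : ℤ) : ℝ) * z = w := by
      rw [hw, ← Finset.sum_subset (Finset.subset_insert _ S) fun z _ hz => by simp [hz]]
      exact Finset.sum_congr rfl fun z hz => by simp [hz]
    have h2 : ∑ z ∈ insert |w| S, ((if z = |w| then s else 0 : ℤ) : ℝ) * z = w := by
      rw [Finset.sum_eq_single_of_mem |w| (Finset.mem_insert_self _ _) fun z _ hz => by simp [hz]]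
      simp [hsw]
    simp only [hd, Int.cast_sub, sub_mul, Finset.sum_sub_distrib, h1, h2, sub_self]
  have hzero := hrel _ (fun z hz => (Finset.mem_insert.1 hz).elim (fun e => e ▸ hp) (hS z)) d hsum
  rcases ne_or_eq x |w| with hne | heq
  · have := hzero x (Finset.mem_insert_of_mem hx)
    simp [hd, hx, hne, hcx] at this
  · have hne : y ≠ |w| := fun e => hxy (heq.trans e.symm)
    have := hzero y (Finset.mem_insert_of_mem hy)
    simp [hd, hy, hne, hcy] at this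

/-- **Ingham's theorem.** -/
theorem not_eventually_le
    (hLI : LinearIndependent ℚ fun x : {x : ℝ // 0 < x ∧ riemannZeta (onLine x) = 0} => (x : ℝ))
    (he : |e| = 1) : ¬∀ᶠ n : ℕ in atTop, e * moebiusSum n ≤ C * √n := by
  classical
  intro h
  obtain ⟨hRH, hsimple⟩ := simple_of_bound he h
  have hside : ∀ S : Finset ℝ, (∀ x ∈ S, 0 < x ∧ riemannZeta (onLine x) = 0) →
      ∑ x ∈ S, ‖resid x‖ ≤ C := fun S hS =>
    sum_resid_le_finset he h S (fun x hx => ⟨(hS x hx).1.ne', (hS x hx).2⟩)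
      fun c _ h2 => free_of_independent hLI S hS c h2
  refine not_summable_resid (fun ρ hρ => (hsimple ρ hρ).1)
    (summable_of_sum_le (fun ρ => norm_nonneg _) (c := C + C) fun U => ?_)
  have hnorm : ∀ ρ : {ρ : ℂ // xiFn ρ = 0},
      ‖((ρ : ℂ) * deriv riemannZeta ρ)⁻¹‖ = ‖resid |(ρ : ℂ).im|‖ := fun ρ => by
    conv_lhs => rw [(zero_data hRH ρ.2).1]
    rcases abs_choice (ρ : ℂ).im with h | h
    · rw [h, resid]
    · rw [h, resid_neg, Complex.norm_conj, resid]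
  have hpart : ∀ V : Finset {ρ : ℂ // xiFn ρ = 0},
      (Set.InjOn (fun ρ : {ρ : ℂ // xiFn ρ = 0} => |(ρ : ℂ).im|) (V : Set _)) →
      ∑ ρ ∈ V, ‖((ρ : ℂ) * deriv riemannZeta ρ)⁻¹‖ ≤ C := by
    intro V hV
    rw [Finset.sum_congr rfl fun ρ _ => hnorm ρ,
      ← Finset.sum_image (f := fun x => ‖resid x‖) hV]
    refine hside _ fun x hx => ?_
    obtain ⟨ρ, -, rfl⟩ := Finset.mem_image.1 hx
    obtain ⟨-, h2, h3⟩ := zero_data hRH ρ.2
    refine ⟨abs_pos.2 h2, ?_⟩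
    rcases abs_choice (ρ : ℂ).im with h | h
    · rwa [h]
    · rw [h, ← conj_onLine, riemannZeta_conj, h3, map_zero]
  rw [← Finset.sum_filter_add_sum_filter_not U fun ρ => 0 < (ρ : ℂ).im]
  have hinj : ∀ ρ σ : {ρ : ℂ // xiFn ρ = 0}, (ρ : ℂ).im = (σ : ℂ).im → ρ = σ := fun ρ σ h =>
    Subtype.ext (by rw [(zero_data hRH ρ.2).1, (zero_data hRH σ.2).1, h])
  refine add_le_add (hpart _ fun ρ hρ σ hσ h => hinj ρ σ ?_)
    (hpart _ fun ρ hρ σ hσ h => hinj ρ σ ?_)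
  · simp only [Finset.coe_filter, Set.mem_ofPred_eq] at hρ hσ
    simp only [abs_of_pos hρ.2, abs_of_pos hσ.2] at h
    exact h
  · simp only [Finset.coe_filter, Set.mem_ofPred_eq, not_lt] at hρ hσ
    simp only [abs_of_nonpos hρ.2, abs_of_nonpos hσ.2, neg_inj] at h
    exact h

end FA.MertensOmega

end
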