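import Fermat.Agent.MertensOmega.Horizontal
import Fermat.Agent.ExplicitFormula.Contour
import Mathlib.Analysis.SpecialFunctions.Gaussian.FourierTransform

/-!
# The Gaussian explicit formula for `1 / ζ`

Simple poles inside a rectangle, and `∫ exp (ε s² + y s) / ζ s` on `re s = 3` minus the same on
`re s = -1` as the sum of `exp (ε ρ² + y ρ) / ζ' ρ`, all zeros simple with `∑ 1 / |ρ ζ' ρ|` finite.
-/

set_option autoImplicit false

noncomputable section

namespace FA.MertensOmega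

open Complex Filter Topology MeasureTheory Set FA.RiemannMangoldt FA.ExplicitFormula
open FA.VonKoch (invZeta invZeta_eq differentiableAt_invZeta)
open scoped Real

/-- **Finitely many simple poles.** -/
theorem boxInt_simple_poles {F r : ℂ → ℂ} {a b T : ℝ} (hab : a ≤ b) (hT : 0 ≤ T) (Z : Finset ℂ)
    (hin : ∀ ρ ∈ Z, a < ρ.re ∧ ρ.re < b ∧ |ρ.im| < T)
    (hF : ∀ s : ℂ, s.re ∈ Icc a b → s.im ∈ Icc (-T) T → s ∉ Z → DifferentiableAt ℂ F s)
    (hpole : ∀ ρ ∈ Z, ∃ q : ℂ → ℂ, AnalyticAt ℂ q ρ ∧ q ρ = r ρ ∧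
      ∀ᶠ s in 𝓝[≠] ρ, F s = q s / (s - ρ)) :
    boxInt F a b T = 2 * π * I * ∑ ρ ∈ Z, r ρ := by
  classical
  choose! q hq hqr hqF using hpole
  obtain ⟨g, hg⟩ : ∃ g : ℂ → ℂ, g = fun s => if s ∈ Z then
      dslope (q s) s s - ∑ ρ ∈ Z.erase s, r ρ * (s - ρ)⁻¹
      else F s - ∑ ρ ∈ Z, r ρ * (s - ρ)⁻¹ := ⟨_, rfl⟩
  have hoff : ∀ ρ : ℂ, ∀ᶠ s in 𝓝 ρ, s ∉ Z.erase ρ := fun ρ =>
    (Z.erase ρ).finite_toSet.isClosed.isOpen_compl.mem_nhds (by simp)
  have hdiff : ∀ s : ℂ, s.re ∈ Icc a b → s.im ∈ Icc (-T) T → DifferentiableAt ℂ g s := by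
    intro s h1 h2
    by_cases hs : s ∈ Z
    · obtain ⟨U, hU, hUo, hsU⟩ := eventually_nhds_iff.1 (hq s hs).eventually_analyticAt
      have hd : DifferentiableAt ℂ (dslope (q s) s) s :=
        ((differentiableOn_dslope (hUo.mem_nhds hsU)).2 fun x hx =>
          (hU x hx).differentiableAt.differentiableWithinAt).differentiableAt (hUo.mem_nhds hsU)
      refine (hd.sub (DifferentiableAt.fun_sum (u := Z.erase s) fun ρ hρ =>
        (((differentiableAt_id.sub_const ρ).inv (sub_ne_zero.2 (Finset.ne_of_mem_erase hρ).symm)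
          ).const_mul (r ρ)))).congr_of_eventuallyEq ?_
      filter_upwards [hoff s, eventually_nhdsWithin_iff.1 (hqF s hs)] with x hx hxF
      simp only [hg, Pi.sub_apply, id_eq]
      by_cases hxs : x = s
      · subst hxs
        rw [if_pos hs]
        rfl
      · have hxZ : x ∉ Z := fun h => hx (Finset.mem_erase.2 ⟨hxs, h⟩)
        rw [if_neg hxZ, hxF hxs, dslope_of_ne _ hxs, slope, vsub_eq_sub, smul_eq_mul, hqr s hs,
          ← Finset.add_sum_erase _ _ hs]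
        simp only [Pi.inv_apply]
        ring
    · have hev : ∀ᶠ x in 𝓝 s, x ∉ Z :=
        Z.finite_toSet.isClosed.isOpen_compl.mem_nhds (by simpa using hs)
      refine ((hF s h1 h2 hs).sub (DifferentiableAt.fun_sum (u := Z) fun ρ hρ =>
        (((differentiableAt_id.sub_const ρ).inv (sub_ne_zero.2 fun h : s = ρ => hs (h ▸ hρ))
          ).const_mul (r ρ)))).congr_of_eventuallyEq ?_
      filter_upwards [hev] with x hx
      simp [hg, hx]
  have hc : ∀ ρ ∈ Z.val, ∀ s ∈ boxEdges a b T, ContinuousAt (fun s => r ρ * (s - ρ)⁻¹) s := by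
    intro ρ hρ s hs
    obtain ⟨h1, h2, h3⟩ := hin ρ hρ
    exact continuousAt_const.mul ((continuousAt_id.sub continuousAt_const).inv₀
      (sub_ne_zero.2 (interior_not_edge h1 h2 h3.ne hT hs)))
  obtain ⟨hsc, hsum⟩ := boxInt_multiset_sum (a := a) (b := b) (T := T) Z.val hc
  have hedge : ∀ s ∈ boxEdges a b T, s.re ∈ Icc a b ∧ s.im ∈ Icc (-T) T := fun s hs => by
    obtain ⟨h1, h2, -⟩ := hs
    rw [uIcc_of_le hab] at h1
    rw [uIcc_of_le (by linarith)] at h2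
    exact ⟨h1, h2⟩
  rw [boxInt_congr (G := fun s => g s + (Z.val.map fun ρ => r ρ * (s - ρ)⁻¹).sum) fun s hs => ?_,
    boxInt_add (fun s hs => (hdiff s (hedge s hs).1 (hedge s hs).2).continuousAt) hsc,
    boxInt_eq_zero hab hT hdiff, zero_add, hsum, Finset.mul_sum]
  · refine Finset.sum_congr rfl fun ρ hρ => ?_
    obtain ⟨h1, h2, h3⟩ := hin ρ hρ
    rw [boxInt_const_mul, boxInt_inv h1 h2 h3]
    ring
  · have hsZ : s ∉ Z := fun h => by
      obtain ⟨h1, h2, h3⟩ := hin s h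
      exact interior_not_edge h1 h2 h3.ne hT hs rfl
    simp only [hg, if_neg hsZ]
    exact (sub_add_cancel _ _).symm

/-- `exp (ε s² + y s)`. -/
def gaussKer (ε y : ℝ) (s : ℂ) : ℂ := exp ((ε : ℂ) * s ^ 2 + (y : ℂ) * s)

/-- The integrand. -/
def smoothed (ε y : ℝ) (s : ℂ) : ℂ := gaussKer ε y s * invZeta s

/-- The integral along `re s = σ`. -/
def lineJ (ε y σ : ℝ) : ℂ := ∫ t : ℝ, smoothed ε y ((σ : ℂ) + t * I)

variable {ε y : ℝ}

theorem norm_gaussKer (s : ℂ) :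
    ‖gaussKer ε y s‖ = Real.exp (ε * (s.re ^ 2 - s.im ^ 2) + y * s.re) := by
  rw [gaussKer, Complex.norm_exp]
  simp [pow_two]

theorem differentiable_gaussKer : Differentiable ℂ (gaussKer ε y) := by
  unfold gaussKer
  fun_prop

theorem continuous_smoothed_line {σ : ℝ} (hσ : σ = -1 ∨ σ = 3) :
    Continuous fun t : ℝ => smoothed ε y ((σ : ℂ) + t * I) := by
  refine continuous_iff_continuousAt.2 fun t => ?_
  have h : riemannZeta₁ ((σ : ℂ) + t * I) ≠ 0 := fun h => by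
    obtain ⟨a, b⟩ := xiFn_zero_strip (xiFn_of_zeta₁_zero
      (by rcases hσ with rfl | rfl <;> simp <;> linarith) h)
    rcases hσ with rfl | rfl <;> simp at a b <;> linarith
  exact ContinuousAt.comp' (g := smoothed ε y) (f := fun v : ℝ => (σ : ℂ) + v * I)
    ((differentiable_gaussKer _).mul (differentiableAt_invZeta h)).continuousAt (by fun_prop)

theorem norm_smoothed_line_le {σ K : ℝ} {t : ℝ} (hK : ‖invZeta ((σ : ℂ) + t * I)‖ ≤ K) :
    ‖smoothed ε y ((σ : ℂ) + t * I)‖ ≤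
      Real.exp (ε * σ ^ 2 + y * σ) * K * Real.exp (-ε * t ^ 2) := by
  rw [smoothed, norm_mul, norm_gaussKer, show ((σ : ℂ) + t * I).re = σ by simp,
    show ((σ : ℂ) + t * I).im = t by simp, mul_right_comm, ← Real.exp_add,
    show ε * σ ^ 2 + y * σ + -ε * t ^ 2 = ε * (σ ^ 2 - t ^ 2) + y * σ by ring]
  exact mul_le_mul_of_nonneg_left hK (Real.exp_pos _).le

theorem integrable_smoothed (hε : 0 < ε) {σ : ℝ} (hσ : σ = -1 ∨ σ = 3) :
    Integrable fun t : ℝ => smoothed ε y ((σ : ℂ) + t * I) := by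
  obtain ⟨K, hK⟩ : ∃ K, ∀ t : ℝ, ‖invZeta ((σ : ℂ) + t * I)‖ ≤ K := by
    rcases hσ with rfl | rfl
    · obtain ⟨C, hC0, hC⟩ := exists_invZeta_left
      exact ⟨C, fun t => (hC t).trans (div_le_self hC0 (by linarith [abs_nonneg t]))⟩
    · obtain ⟨K, -, hK⟩ := exists_invZeta_right
      exact ⟨K, fun t => hK _ (by norm_num)⟩
  exact ((integrable_exp_neg_mul_sq hε).const_mul (Real.exp (ε * σ ^ 2 + y * σ) * K)).mono'
    (continuous_smoothed_line hσ).aestronglyMeasurable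
    (Eventually.of_forall fun t => norm_smoothed_line_le (hK t))

theorem deriv_zeta₁_zero {ρ : ℂ} (hρ1 : ρ ≠ 1) (hz : riemannZeta ρ = 0) :
    deriv riemannZeta₁ ρ = (ρ - 1) * deriv riemannZeta ρ := by
  have he : riemannZeta₁ =ᶠ[𝓝 ρ] fun s => (s - 1) * riemannZeta s :=
    (eventually_ne_nhds hρ1).mono fun s hs => by
      simp only
      rw [riemannZeta_eq_inv_sub_mul hs, ← mul_assoc, mul_inv_cancel₀ (sub_ne_zero.2 hs), one_mul]
  rw [he.deriv_eq, (((hasDerivAt_id' ρ).sub_const 1).fun_mul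
    (differentiableAt_riemannZeta hρ1).hasDerivAt).deriv, hz]
  ring

/-- The residue at a zero. -/
def smoothRes (ε y : ℝ) (ρ : ℂ) : ℂ := gaussKer ε y ρ * (deriv riemannZeta ρ)⁻¹

theorem boxInt_smoothed (hs : ∀ ρ : ℂ, xiFn ρ = 0 → deriv riemannZeta ρ ≠ 0) {T : ℝ} (hT : 0 < T)
    (hord : ∀ ρ, xiFn ρ = 0 → |ρ.im| ≠ T) :
    boxInt (smoothed ε y) (-1) 3 T = 2 * π * I * ∑ ρ ∈ zerosUpTo T, smoothRes ε y ρ := by
  refine boxInt_simple_poles (by norm_num) hT.le _ (fun ρ hρ => ?_) (fun s h1 h2 h3 => ?_)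
    fun ρ hρ => ?_
  · rw [mem_zerosUpTo] at hρ
    obtain ⟨a, b⟩ := xiFn_zero_strip hρ.1
    exact ⟨by linarith, by linarith, lt_of_le_of_ne hρ.2 (hord ρ hρ.1)⟩
  · refine (differentiable_gaussKer s).mul (differentiableAt_invZeta fun h => h3 ?_)
    exact mem_zerosUpTo.2 ⟨xiFn_of_zeta₁_zero (by linarith [h1.1]) h, abs_le.2 h2⟩
  · rw [mem_zerosUpTo] at hρ
    obtain ⟨a, b⟩ := xiFn_zero_strip hρ.1
    have hρ1 : ρ ≠ 1 := fun h => by rw [h] at b; simp at b
    have hz := (xiFn_eq_zero_iff a hρ1).1 hρ.1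
    have h1 : riemannZeta₁ ρ = 0 := FA.PsiOscillation.riemannZeta₁_eq_zero hz hρ1
    obtain ⟨D, hD⟩ : ∃ D, D = dslope riemannZeta₁ ρ := ⟨_, rfl⟩
    have hDρ : D ρ = (ρ - 1) * deriv riemannZeta ρ := by
      rw [hD, dslope_same, deriv_zeta₁_zero hρ1 hz]
    have hD0 : D ρ ≠ 0 := hDρ ▸ mul_ne_zero (sub_ne_zero.2 hρ1) (hs ρ hρ.1)
    have hDd : Differentiable ℂ D := differentiableOn_univ.1 (hD ▸
      (differentiableOn_dslope univ_mem).2 differentiable_riemannZeta₁.differentiableOn)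
    refine ⟨fun s => gaussKer ε y s * ((s - 1) / D s), ?_, ?_, ?_⟩
    · exact (differentiable_gaussKer.analyticAt ρ).mul
        ((analyticAt_id.sub analyticAt_const).div (hDd.analyticAt ρ) hD0)
    · simp only [hDρ, smoothRes]
      have := sub_ne_zero.2 hρ1
      field_simp
    · filter_upwards [self_mem_nhdsWithin] with s (hne : s ≠ ρ)
      rw [smoothed, invZeta, hD, dslope_of_ne _ hne, slope, vsub_eq_sub, smul_eq_mul, h1, sub_zero,
        mul_div_assoc]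
      congr 1
      field_simp

theorem norm_smoothRes_le (hε : 0 < ε) (hε1 : ε ≤ 1) {ρ : ℂ} (hρ : xiFn ρ = 0) :
    √ε * ‖smoothRes ε y ρ‖ ≤
      2 * Real.exp (1 + |y|) * ‖(ρ * deriv riemannZeta ρ)⁻¹‖ := by
  obtain ⟨a, b⟩ := xiFn_zero_strip hρ
  have hρ0 : ρ ≠ 0 := fun h => by rw [h] at a; simp at a
  have e : (deriv riemannZeta ρ)⁻¹ = ρ * (ρ * deriv riemannZeta ρ)⁻¹ := by
    rw [mul_inv, ← mul_assoc, mul_inv_cancel₀ hρ0, one_mul]
  rw [smoothRes, e, norm_mul, norm_mul, norm_gaussKer, ← mul_assoc, ← mul_assoc]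
  refine mul_le_mul_of_nonneg_right ?_ (norm_nonneg _)
  obtain ⟨x, hx⟩ : ∃ x, x = √ε * |ρ.im| := ⟨_, rfl⟩
  have hx0 : 0 ≤ x := hx ▸ by positivity
  have hx2 : x ^ 2 = ε * ρ.im ^ 2 := by rw [hx, mul_pow, Real.sq_sqrt hε.le, sq_abs]
  have h1 : Real.exp (ε * (ρ.re ^ 2 - ρ.im ^ 2) + y * ρ.re) ≤
      Real.exp (1 + |y|) * Real.exp (-x ^ 2) := by
    rw [← Real.exp_add, hx2]
    refine Real.exp_le_exp.2 ?_
    have h3 : y * ρ.re ≤ |y| :=
      (mul_le_mul_of_nonneg_right (le_abs_self y) a.le).trans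
        (mul_le_of_le_one_right (abs_nonneg y) b.le)
    nlinarith
  have h2 : √ε * ‖ρ‖ ≤ 1 + x := by
    have := norm_le_abs_re_add_abs_im ρ
    rw [abs_of_pos a] at this
    have hs1 : √ε ≤ 1 := Real.sqrt_le_one.2 hε1
    rw [hx]
    nlinarith [Real.sqrt_nonneg ε]
  have h3 : Real.exp (-x ^ 2) * (1 + x) ≤ 2 := by
    rw [Real.exp_neg, inv_mul_le_iff₀ (Real.exp_pos _)]
    nlinarith [Real.add_one_le_exp (x ^ 2), sq_nonneg (x - 1)]
  calc √ε * Real.exp (ε * (ρ.re ^ 2 - ρ.im ^ 2) + y * ρ.re) * ‖ρ‖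
      = Real.exp (ε * (ρ.re ^ 2 - ρ.im ^ 2) + y * ρ.re) * (√ε * ‖ρ‖) := by ring
    _ ≤ Real.exp (1 + |y|) * Real.exp (-x ^ 2) * (1 + x) :=
        mul_le_mul h1 h2 (by positivity) (by positivity)
    _ ≤ _ := by
        rw [mul_assoc, mul_comm (2 : ℝ)]
        exact mul_le_mul_of_nonneg_left h3 (Real.exp_pos _).le

/-- **Pushing the rectangles to infinity**: a line integral minus another is the limit of the
rectangle, when `H` is `exp (O T)` on the horizontal sides. -/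
theorem line_sub_of_boxInt (hε : 0 < ε) {H : ℂ → ℂ} {a b B : ℝ} {R : ℂ} {T : ℕ → ℝ} (ha : -1 ≤ a)
    (hab : a ≤ b) (hb : b ≤ 3) (hT : Tendsto T atTop atTop)
    (hH : ∀ (m : ℕ) (u t : ℝ), a ≤ u → u ≤ b → |t| = T m →
      ‖H ((u : ℂ) + t * I)‖ ≤ Real.exp (B * T m))
    (hia : Integrable fun t : ℝ => gaussKer ε y ((a : ℂ) + t * I) * H ((a : ℂ) + t * I))
    (hib : Integrable fun t : ℝ => gaussKer ε y ((b : ℂ) + t * I) * H ((b : ℂ) + t * I))
    (hR : Tendsto (fun m => boxInt (fun s => gaussKer ε y s * H s) a b (T m)) atTop (𝓝 R)) :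
    I * (∫ t : ℝ, gaussKer ε y ((b : ℂ) + t * I) * H ((b : ℂ) + t * I)) -
      I * (∫ t : ℝ, gaussKer ε y ((a : ℂ) + t * I) * H ((a : ℂ) + t * I)) = R := by
  have hside : ∀ e : ℝ, |e| = 1 → Tendsto (fun m => ∫ u in a..b,
      gaussKer ε y ((u : ℂ) + ((e * T m : ℝ) : ℂ) * I) * H ((u : ℂ) + ((e * T m : ℝ) : ℂ) * I))
      atTop (𝓝 0) := by
    intro e he
    have hq : Tendsto (fun X : ℝ => 4 * Real.exp (9 * ε + 3 * |y| + B * X - ε * X ^ 2)) atTop
        (𝓝 0) := by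
      have h1 : Tendsto (fun X : ℝ => 9 * ε + 3 * |y| + B * X - ε * X ^ 2) atTop atBot := by
        refine tendsto_atBot_mono' atTop ?_ (tendsto_neg_atTop_atBot)
        filter_upwards [eventually_ge_atTop (1 : ℝ),
          eventually_ge_atTop ((9 * ε + 3 * |y| + |B| + 1) / ε)] with X hX1 hX
        rw [div_le_iff₀ hε] at hX
        show _ ≤ -X
        nlinarith [le_abs_self B, abs_nonneg B, abs_nonneg y]
      simpa using (Real.tendsto_exp_atBot.comp h1).const_mul 4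
    refine squeeze_zero_norm' ?_ (hq.comp hT)
    filter_upwards [hT.eventually_gt_atTop 0] with m hT0
    have habs : |e * T m| = T m := by rw [abs_mul, he, one_mul, abs_of_pos hT0]
    refine (intervalIntegral.norm_integral_le_of_norm_le_const
      (C := Real.exp (9 * ε + 3 * |y| + B * T m - ε * T m ^ 2)) fun u hu => ?_).trans ?_
    swap
    · rw [Function.comp_apply, mul_comm (4 : ℝ)]
      exact mul_le_mul_of_nonneg_left (by rw [abs_of_nonneg (sub_nonneg.2 hab)]; linarith)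
        (Real.exp_pos _).le
    rw [uIoc_of_le hab] at hu
    rw [norm_mul, norm_gaussKer, show ((u : ℂ) + ((e * T m : ℝ) : ℂ) * I).re = u by simp,
      show ((u : ℂ) + ((e * T m : ℝ) : ℂ) * I).im = e * T m by simp, ← sq_abs (e * T m), habs]
    refine (mul_le_mul_of_nonneg_left (hH m u (e * T m) hu.1.le hu.2 habs)
      (Real.exp_pos _).le).trans ?_
    rw [← Real.exp_add]
    refine Real.exp_le_exp.2 ?_
    have hu2 : u ^ 2 ≤ 9 := by nlinarith [hu.1, hu.2]
    have hyu : y * u ≤ 3 * |y| := (le_abs_self _).trans (by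
      rw [abs_mul, mul_comm]
      exact mul_le_mul_of_nonneg_right (abs_le.2 ⟨by linarith [hu.1], by linarith [hu.2]⟩)
        (abs_nonneg y))
    nlinarith
  have hvert : ∀ {f : ℝ → ℂ}, Integrable f →
      Tendsto (fun m => ∫ t in (-T m)..T m, f t) atTop (𝓝 (∫ t, f t)) := fun hf =>
    intervalIntegral_tendsto_integral hf (tendsto_neg_atTop_atBot.comp hT) hT
  have hlim := (((hside (-1) (by norm_num)).sub (hside 1 abs_one)).add
    ((hvert hib).const_mul I)).sub ((hvert hia).const_mul I)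
  simp only [neg_one_mul, one_mul, sub_self, zero_add] at hlim
  exact tendsto_nhds_unique hlim hR

/-- **The smoothed explicit formula.** -/
theorem lineJ_sub (hε : 0 < ε) (hε1 : ε ≤ 1)
    (hs : ∀ ρ : ℂ, xiFn ρ = 0 → deriv riemannZeta ρ ≠ 0)
    (hsum : Summable fun ρ : {ρ : ℂ // xiFn ρ = 0} =>
      ‖((ρ : ℂ) * deriv riemannZeta ρ)⁻¹‖) :
    lineJ ε y 3 - lineJ ε y (-1) =
      2 * π * ∑' ρ : {ρ : ℂ // xiFn ρ = 0}, smoothRes ε y ρ := by
  classical
  obtain ⟨T, B, hlow, hord, hB⟩ := exists_heights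
  have hTt : Tendsto T atTop atTop := tendsto_atTop_mono
    (fun m => le_trans (le_add_of_nonneg_right (by norm_num)) (hlow m)) tendsto_natCast_atTop_atTop
  have hres : HasSum (fun ρ : {ρ : ℂ // xiFn ρ = 0} => smoothRes ε y ρ)
      (∑' ρ : {ρ : ℂ // xiFn ρ = 0}, smoothRes ε y ρ) := by
    refine (Summable.of_norm_bounded (hsum.mul_left (2 * Real.exp (1 + |y|) / √ε)) fun ρ => ?_
      ).hasSum
    rw [div_mul_eq_mul_div, le_div_iff₀ (Real.sqrt_pos.2 hε), mul_comm]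
    exact norm_smoothRes_le hε hε1 ρ.2
  have hZ : Tendsto (fun m => ∑ ρ ∈ zerosUpTo (T m), smoothRes ε y ρ) atTop
      (𝓝 (∑' ρ : {ρ : ℂ // xiFn ρ = 0}, smoothRes ε y ρ)) := by
    have hat : Tendsto (fun m => (zerosUpTo (T m)).subtype fun ρ => xiFn ρ = 0) atTop atTop := by
      refine tendsto_atTop.2 fun S => ?_
      filter_upwards [hTt.eventually (eventually_ge_atTop (∑ ρ ∈ S, |(ρ : ℂ).im|))] with m hm
      intro ρ hρ
      rw [Finset.mem_subtype, mem_zerosUpTo]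
      exact ⟨ρ.2, le_trans (Finset.single_le_sum
        (f := fun ρ : {ρ : ℂ // xiFn ρ = 0} => |(ρ : ℂ).im|) (fun i _ => abs_nonneg _) hρ) hm⟩
    refine (hres.comp hat).congr fun m => ?_
    exact Finset.sum_subtype_of_mem (fun ρ => smoothRes ε y ρ) fun ρ hρ => (mem_zerosUpTo.1 hρ).1
  have hR := (hZ.const_mul (2 * π * I)).congr fun m =>
    (boxInt_smoothed (ε := ε) (y := y) hs
      (show 0 < T m by linarith [hlow m, (Nat.cast_nonneg m : (0 : ℝ) ≤ m)]) (hord m)).symm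
  have heq := line_sub_of_boxInt (H := invZeta) hε le_rfl (by norm_num : (-1 : ℝ) ≤ 3) le_rfl hTt
    hB (integrable_smoothed hε (Or.inl rfl)) (integrable_smoothed hε (Or.inr rfl)) hR
  apply mul_left_cancel₀ I_ne_zero
  linear_combination (norm := (simp only [lineJ, smoothed]; ring)) heq

end FA.MertensOmega

end
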