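import Fermat.Agent.MertensOmega.Contour

/-!
# Gaussian means along vertical lines

As `ε → 0`, `√ε ∫ exp (ε s² + log k · s) H s` tends on `re s = 3` to `√π a k` for a Dirichlet
series `H = ∑ a n n ^ (-s)` with bounded coefficients, and on any line on which
`H = O ((1 + |t|) ^ (-1/8))` to `0`.
-/

set_option autoImplicit false

noncomputable section

namespace FA.MertensOmega

open Complex Filter Topology MeasureTheory Set
open scoped Real

variable {ε : ℝ}

/-- The Gaussian integral on the line `re s = 3`. -/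
theorem integral_gaussKer_three (hε : 0 < ε) (c : ℝ) :
    ∫ t : ℝ, gaussKer ε c (((3 : ℝ) : ℂ) + t * I) =
      ((√(π / ε) * Real.exp (-(c ^ 2) / (4 * ε)) : ℝ) : ℂ) := by
  have e : ∀ t : ℝ, gaussKer ε c (((3 : ℝ) : ℂ) + t * I) =
      exp (-(ε : ℂ) * t ^ 2 + (I * (6 * ε + c)) * t + (9 * ε + 3 * c)) := fun t => by
    rw [gaussKer]
    congr 1
    push_cast
    linear_combination (ε : ℂ) * (t : ℂ) ^ 2 * I_sq
  simp only [e]
  have hε' : (ε : ℂ) ≠ 0 := ofReal_ne_zero.2 hε.ne'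
  rw [integral_cexp_quadratic (by simpa using hε), neg_neg, ofReal_mul, ofReal_exp,
    Real.sqrt_eq_rpow, ofReal_cpow (div_pos Real.pi_pos hε).le]
  push_cast
  congr 2
  field_simp
  linear_combination (6 * (ε : ℂ) + c) ^ 2 * I_sq

/-- The damping of the `n`-th coefficient. -/
def damp (ε y : ℝ) (n : ℕ) : ℝ := Real.exp (-((y - Real.log n) ^ 2) / (4 * ε))

/-- The Gaussian integral of a bounded Dirichlet series on `re s = 3`. -/
theorem integral_series_three (hε : 0 < ε) (y : ℝ) {a : ℕ → ℂ} (ha : ∀ n, ‖a n‖ ≤ 1)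
    (ha0 : a 0 = 0) {H : ℂ → ℂ} (hH : ∀ s : ℂ, s.re = 3 → LSeries a s = H s) :
    ∫ t : ℝ, gaussKer ε y (((3 : ℝ) : ℂ) + t * I) * H (((3 : ℝ) : ℂ) + t * I) =
      ((√(π / ε) : ℝ) : ℂ) * ∑' n : ℕ, a n * (damp ε y n : ℂ) := by
  obtain ⟨F, hF⟩ : ∃ F : ℕ → ℝ → ℂ, F = fun (n : ℕ) (t : ℝ) =>
      a n * gaussKer ε (y - Real.log n) (((3 : ℝ) : ℂ) + t * I) := ⟨_, rfl⟩
  have hpt : ∀ t : ℝ, ∑' n, F n t =
      gaussKer ε y (((3 : ℝ) : ℂ) + t * I) * H (((3 : ℝ) : ℂ) + t * I) := by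
    intro t
    rw [← hH _ (by simp), LSeries, ← tsum_mul_left]
    refine tsum_congr fun n => ?_
    rcases Nat.eq_zero_or_pos n with rfl | hn
    · simp [hF, ha0]
    rw [hF, LSeries.term_of_ne_zero hn.ne', div_eq_mul_inv, ← cpow_neg,
      cpow_def_of_ne_zero (Nat.cast_ne_zero.2 hn.ne'), ← natCast_log]
    simp only [gaussKer]
    rw [mul_left_comm, ← Complex.exp_add]
    congr 2
    push_cast
    ring
  have hnorm : ∀ n t, ‖F n t‖ = ‖a n‖ * (Real.exp (-(3 * Real.log n)) *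
      (Real.exp (9 * ε + 3 * y) * Real.exp (-ε * t ^ 2))) := fun n t => by
    rw [hF, norm_mul, norm_gaussKer, ← Real.exp_add, ← Real.exp_add]
    congr 2
    simp
    ring
  have hint : ∀ n, Integrable (F n) := fun n => by
    refine Integrable.mono' ((((integrable_exp_neg_mul_sq hε).const_mul
      (Real.exp (9 * ε + 3 * y))).const_mul (Real.exp (-(3 * Real.log n)))).const_mul ‖a n‖) ?_
      (Eventually.of_forall fun t => (hnorm n t).le)
    rw [hF]
    exact (continuous_const.mul (differentiable_gaussKer.continuous.comp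
      (by fun_prop : Continuous fun t : ℝ => ((3 : ℝ) : ℂ) + t * I))).aestronglyMeasurable
  have hsum : Summable fun n => ∫ t, ‖F n t‖ := by
    simp only [hnorm, integral_const_mul]
    refine Summable.of_nonneg_of_le (fun n => ?_) (fun n => ?_)
      ((Real.summable_nat_rpow.2 (by norm_num : (-3 : ℝ) < -1)).mul_right
        (Real.exp (9 * ε + 3 * y) * ∫ t : ℝ, Real.exp (-ε * t ^ 2)))
    · have : 0 ≤ ∫ t : ℝ, Real.exp (-ε * t ^ 2) := integral_nonneg fun t => (Real.exp_pos _).le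
      positivity
    · have h0 : 0 ≤ ∫ t : ℝ, Real.exp (-ε * t ^ 2) :=
        integral_nonneg fun t => (Real.exp_pos _).le
      rcases Nat.eq_zero_or_pos n with rfl | hn
      · simp [ha0, Real.zero_rpow (show (-3 : ℝ) ≠ 0 by norm_num)]
      rw [Real.rpow_def_of_pos (Nat.cast_pos.2 hn),
        show Real.log n * (-3 : ℝ) = -(3 * Real.log n) by ring]
      exact mul_le_of_le_one_left (by positivity) (ha n)
  rw [← integral_congr_ae (Eventually.of_forall hpt),
    ← integral_tsum_of_summable_integral_norm hint hsum, ← tsum_mul_left]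
  refine tsum_congr fun n => ?_
  rw [hF, integral_const_mul, integral_gaussKer_three hε, damp, ofReal_mul]
  ring

/-- **The mean on `re s = 3` picks out one coefficient.** -/
theorem tendsto_sqrt_series {a : ℕ → ℂ} (ha : ∀ n, ‖a n‖ ≤ 1) (ha0 : a 0 = 0) {H : ℂ → ℂ}
    (hH : ∀ s : ℂ, s.re = 3 → LSeries a s = H s) {k : ℕ} (hk : 0 < k) :
    Tendsto (fun ε : ℝ => ((√ε : ℝ) : ℂ) * ∫ t : ℝ,
        gaussKer ε (Real.log k) (((3 : ℝ) : ℂ) + t * I) * H (((3 : ℝ) : ℂ) + t * I))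
      (𝓝[>] 0) (𝓝 (((√π : ℝ) : ℂ) * a k)) := by
  have hk0 : (0 : ℝ) < k := Nat.cast_pos.2 hk
  obtain ⟨g, hg⟩ : ∃ g : ℕ → ℂ, g = fun n => if n = k then a k else 0 := ⟨_, rfl⟩
  have hlim : Tendsto (fun ε : ℝ => ∑' n : ℕ, a n * (damp ε (Real.log k) n : ℂ))
      (𝓝[>] 0) (𝓝 (∑' n, g n)) := by
    refine tendsto_tsum_of_dominated_convergence
      (bound := fun n : ℕ => Real.exp (2 * Real.log k + 1) * (n : ℝ) ^ (-2 : ℝ))
      ((Real.summable_nat_rpow.2 (by norm_num)).mul_left _) (fun n => ?_) ?_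
    · rcases eq_or_ne n 0 with rfl | h0
      · simp [hg, hk.ne, ha0]
      rcases eq_or_ne n k with rfl | hn
      · simp only [hg, if_true, damp, sub_self]
        norm_num
      have hc : 0 < (Real.log k - Real.log n) ^ 2 := by
        refine lt_of_le_of_ne (sq_nonneg _) fun h => hn ?_
        have h1 : Real.log (k : ℝ) = Real.log n :=
          sub_eq_zero.1 (pow_eq_zero_iff two_ne_zero |>.1 h.symm)
        have := Real.log_injOn_pos (Set.mem_Ioi.2 hk0)
          (Set.mem_Ioi.2 (Nat.cast_pos.2 (Nat.pos_of_ne_zero h0))) h1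
        exact_mod_cast this.symm
      have he : Tendsto (fun ε : ℝ => -((Real.log k - Real.log n) ^ 2) / (4 * ε)) (𝓝[>] 0)
          atBot := by
        have h := (tendsto_inv_nhdsGT_zero (𝕜 := ℝ)).const_mul_atTop_of_neg
          (show -((Real.log k - Real.log n) ^ 2) / 4 < 0 by linarith [div_pos hc four_pos])
        exact h.congr fun ε => by rw [← div_div, ← div_eq_mul_inv]
      simp only [hg, if_neg hn, damp]
      simpa using ((Complex.continuous_ofReal.tendsto 0).comp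
        (Real.tendsto_exp_atBot.comp he)).const_mul (a n)
    · filter_upwards [Ioc_mem_nhdsGT (show (0 : ℝ) < 1 / 4 by norm_num)] with ε hε n
      rcases Nat.eq_zero_or_pos n with rfl | hn
      · simp [ha0]
      rw [norm_mul, norm_real, Real.norm_of_nonneg (show 0 ≤ damp ε _ n from (Real.exp_pos _).le)]
      refine le_trans (mul_le_of_le_one_left (Real.exp_pos _).le (ha n)) ?_
      rw [Real.rpow_def_of_pos (Nat.cast_pos.2 hn), ← Real.exp_add]
      refine Real.exp_le_exp.2 ?_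
      obtain ⟨d, hd⟩ : ∃ d, d = Real.log k - Real.log n := ⟨_, rfl⟩
      rw [← hd, show 2 * Real.log k + 1 + Real.log n * (-2 : ℝ) = 2 * d + 1 by rw [hd]; ring,
        div_le_iff₀ (by linarith [hε.1] : (0 : ℝ) < 4 * ε)]
      have hq : 0 ≤ d ^ 2 / 2 + 2 * d + 2 := by nlinarith [sq_nonneg (d + 2)]
      rcases le_or_gt 0 (2 * d + 1) with h | h
      · nlinarith [mul_nonneg h hε.1.le]
      · have : (1 : ℝ) * (2 * d + 1) ≤ 4 * ε * (2 * d + 1) :=
          mul_le_mul_of_nonpos_right (by linarith [hε.2]) h.le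
        nlinarith [sq_nonneg (d + 1)]
  have hgsum : ∑' n, g n = a k := by
    rw [tsum_eq_single k fun n hn => by simp [hg, hn]]; simp [hg]
  rw [hgsum] at hlim
  refine (hlim.const_mul ((√π : ℝ) : ℂ)).congr'
    (eventually_mem_nhdsWithin.mono fun ε (hε : 0 < ε) => ?_)
  simp only [integral_series_three hε _ ha ha0 hH]
  rw [← mul_assoc, ← ofReal_mul, ← Real.sqrt_mul hε.le, mul_div_cancel₀ _ hε.ne']

/-- `(1 + |t|) ^ (-1/8) ≤ η + 1 / (η ^ 16 (1 + t²))`. -/
theorem rpow_eighth_le {η : ℝ} (hη : 0 < η) (t : ℝ) :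
    (1 + |t|) ^ (-(1 / 8) : ℝ) ≤ η + 1 / η ^ 16 * (1 + t ^ 2)⁻¹ := by
  have ha : (0 : ℝ) < 1 + |t| := by positivity
  obtain ⟨x, hx⟩ : ∃ x, x = (1 + |t|) ^ (-(1 / 8) : ℝ) := ⟨_, rfl⟩
  have hx0 : 0 < x := hx ▸ Real.rpow_pos_of_pos ha _
  have hx1 : x ≤ 1 := hx ▸ Real.rpow_le_one_of_one_le_of_nonpos
    (by linarith [abs_nonneg t]) (by norm_num)
  rw [← hx]
  rcases le_or_gt x η with h | h
  · exact h.trans (le_add_of_nonneg_right (by positivity))
  · refine le_trans ?_ (le_add_of_nonneg_left hη.le)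
    rw [← div_eq_mul_inv, div_div, le_div_iff₀ (by positivity)]
    have e : x ^ 16 * (1 + |t|) ^ 2 = 1 := by
      rw [hx, ← Real.rpow_natCast _ 16, ← Real.rpow_mul ha.le, ← Real.rpow_natCast (1 + |t|) 2,
        ← Real.rpow_add ha]
      norm_num
    have h4 : 1 + t ^ 2 ≤ (1 + |t|) ^ 2 := by nlinarith [abs_nonneg t, sq_abs t]
    calc x * (η ^ 16 * (1 + t ^ 2)) ≤ 1 * (x ^ 16 * (1 + |t|) ^ 2) := by
          refine mul_le_mul hx1 (mul_le_mul (pow_le_pow_left₀ hη.le h.le 16) h4 (by positivity)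
            (by positivity)) (by positivity) zero_le_one
      _ = 1 := by rw [e, one_mul]

/-- **The mean on a line with decay is small.** -/
theorem tendsto_sqrt_line_zero {σ C : ℝ} {H : ℂ → ℂ}
    (hC : ∀ t : ℝ, ‖H ((σ : ℂ) + t * I)‖ ≤ C * (1 + |t|) ^ (-(1 / 8) : ℝ)) (y : ℝ) :
    Tendsto (fun ε : ℝ => ((√ε : ℝ) : ℂ) * ∫ t : ℝ,
        gaussKer ε y ((σ : ℂ) + t * I) * H ((σ : ℂ) + t * I)) (𝓝[>] 0) (𝓝 0) := by
  have hC0 : 0 ≤ C := by simpa using (norm_nonneg _).trans (hC 0)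
  have hup : Tendsto (fun ε : ℝ => Real.exp (ε * σ ^ 2 + y * σ) * C *
      (ε ^ (1 / 64 : ℝ) * √π + ε ^ (1 / 4 : ℝ) * π)) (𝓝[>] 0) (𝓝 0) := by
    have h : Tendsto (fun ε : ℝ => Real.exp (ε * σ ^ 2 + y * σ) * C *
        (ε ^ (1 / 64 : ℝ) * √π + ε ^ (1 / 4 : ℝ) * π)) (𝓝 0)
          (𝓝 (Real.exp (0 * σ ^ 2 + y * σ) * C *
            ((0 : ℝ) ^ (1 / 64 : ℝ) * √π + (0 : ℝ) ^ (1 / 4 : ℝ) * π))) :=
      ((((Real.continuous_exp.comp ((continuous_id.mul continuous_const).add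
        continuous_const)).mul continuous_const).mul
          (((Real.continuous_rpow_const (by norm_num)).mul continuous_const).add
            ((Real.continuous_rpow_const (by norm_num)).mul continuous_const)))).tendsto 0
    simpa using h.mono_left nhdsWithin_le_nhds
  refine squeeze_zero_norm' (eventually_mem_nhdsWithin.mono fun ε (hε : 0 < ε) => ?_) hup
  obtain ⟨η, hη⟩ : ∃ η, η = ε ^ (1 / 64 : ℝ) := ⟨_, rfl⟩
  have hη0 : 0 < η := hη ▸ Real.rpow_pos_of_pos hε _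
  have hI := ((integrable_exp_neg_mul_sq hε).const_mul η).add
    (integrable_inv_one_add_sq.const_mul (1 / η ^ 16))
  have hpt : ∀ t : ℝ, ‖gaussKer ε y ((σ : ℂ) + t * I) * H ((σ : ℂ) + t * I)‖ ≤
      Real.exp (ε * σ ^ 2 + y * σ) * C *
        (η * Real.exp (-ε * t ^ 2) + 1 / η ^ 16 * (1 + t ^ 2)⁻¹) := by
    intro t
    rw [norm_mul, norm_gaussKer, show ((σ : ℂ) + t * I).re = σ by simp,
      show ((σ : ℂ) + t * I).im = t by simp,
      show ε * (σ ^ 2 - t ^ 2) + y * σ = ε * σ ^ 2 + y * σ + -ε * t ^ 2 by ring, Real.exp_add,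
      mul_assoc, mul_assoc]
    refine mul_le_mul_of_nonneg_left ?_ (Real.exp_pos _).le
    have he1 : Real.exp (-ε * t ^ 2) ≤ 1 := Real.exp_le_one_iff.2 (by nlinarith)
    refine (mul_le_mul_of_nonneg_left ((hC t).trans
      (mul_le_mul_of_nonneg_left (rpow_eighth_le hη0 t) hC0)) (Real.exp_pos _).le).trans ?_
    have hp : 0 ≤ 1 / η ^ 16 * (1 + t ^ 2)⁻¹ := by positivity
    nlinarith [mul_nonneg (mul_nonneg hC0 hp) (sub_nonneg.2 he1)]
  rw [norm_mul, norm_real, Real.norm_of_nonneg (Real.sqrt_nonneg _)]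
  refine (mul_le_mul_of_nonneg_left (norm_integral_le_of_norm_le (hI.const_mul _)
    (Eventually.of_forall hpt)) (Real.sqrt_nonneg _)).trans (le_of_eq ?_)
  simp only [Pi.add_apply]
  rw [integral_const_mul, integral_add ((integrable_exp_neg_mul_sq hε).const_mul η)
    (integrable_inv_one_add_sq.const_mul (1 / η ^ 16)), integral_const_mul, integral_const_mul,
    integral_gaussian, integral_univ_inv_one_add_sq]
  have h1 : √ε * √(π / ε) = √π := by rw [← Real.sqrt_mul hε.le, mul_div_cancel₀ _ hε.ne']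
  have h2 : √ε * (1 / η ^ 16) = ε ^ (1 / 4 : ℝ) := by
    rw [hη, Real.sqrt_eq_rpow, ← Real.rpow_natCast (ε ^ (1 / 64 : ℝ)), ← Real.rpow_mul hε.le,
      one_div (ε ^ _), ← Real.rpow_neg hε.le, ← Real.rpow_add hε]
    norm_num
  rw [← hη, ← h1, ← h2]
  ring

end FA.MertensOmega

end
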