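import Fermat.Agent.ExplicitFormula.Zeros
import Fermat.Agent.HeckeBS.GammaBounds
import Fermat.Agent.VonKoch.Main
import Fermat.Agent.PsiOscillation.Main
import Mathlib.Analysis.ODE.Gronwall

/-!
# `1 / ζ` on `re s = -1` and across `-1 ≤ re s ≤ 3`

`1/ζ (-1 + it) = O (1 / (1 + |t|))` and, on heights away from the ordinates,
`1/ζ (σ + iT) = exp (O T)` for `-1 ≤ σ ≤ 3`, by the functional equation and Grönwall.
-/

set_option autoImplicit false

noncomputable section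

namespace FA.MertensOmega

open Complex Filter Topology Set FA.RiemannMangoldt FA.ExplicitFormula FA.ZeroFree
open FA.VonKoch (invZeta invZeta_eq moebius_series)
open scoped Real ArithmeticFunction.Moebius

theorem exists_invZeta_right : ∃ K, 1 ≤ K ∧ ∀ s : ℂ, 3 / 2 ≤ s.re → ‖invZeta s‖ ≤ K := by
  have hsum : Summable fun n : ℕ => (n : ℝ) ^ (-(3 / 2) : ℝ) :=
    Real.summable_nat_rpow.2 (by norm_num)
  refine ⟨max 1 (∑' n : ℕ, (n : ℝ) ^ (-(3 / 2) : ℝ)), le_max_left _ _, fun s hs => ?_⟩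
  rw [← (moebius_series (by linarith)).2, LSeries]
  refine (tsum_of_norm_bounded hsum.hasSum fun n => ?_).trans (le_max_right _ _)
  rw [LSeries.norm_term_eq]
  split_ifs with hn
  · exact Real.rpow_nonneg (Nat.cast_nonneg _) _
  · have h1 : (1 : ℝ) ≤ n := Nat.one_le_cast.2 (Nat.one_le_iff_ne_zero.2 hn)
    calc _ ≤ 1 / (n : ℝ) ^ s.re := div_le_div_of_nonneg_right
          (by rw [Complex.norm_intCast]; exact_mod_cast ArithmeticFunction.abs_moebius_le_one)
          (Real.rpow_nonneg (by linarith) _)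
      _ = (n : ℝ) ^ (-s.re) := by rw [Real.rpow_neg (by linarith), one_div]
      _ ≤ _ := Real.rpow_le_rpow_of_exponent_le h1 (by linarith)

theorem abs_im_le_norm_cos (z : ℂ) : |z.im| ≤ ‖Complex.cos z‖ := by
  have h1 : ‖exp (z * I)‖ = Real.exp (-z.im) := by simp [Complex.norm_exp]
  have h2 : ‖exp (-z * I)‖ = Real.exp z.im := by simp [Complex.norm_exp]
  have a := norm_sub_norm_le (exp (z * I)) (-exp (-z * I))
  have b := norm_sub_norm_le (-exp (-z * I)) (exp (z * I))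
  rw [norm_neg, h1, h2, sub_neg_eq_add] at a
  rw [norm_neg, h1, h2, show -exp (-z * I) - exp (z * I) = -(exp (z * I) + exp (-z * I)) by ring,
    norm_neg] at b
  rw [Complex.cos, norm_div, RCLike.norm_ofNat, le_div_iff₀ two_pos]
  have hs := Real.sinh_eq z.im
  rcases le_total 0 z.im with h | h
  · have := Real.self_le_sinh_iff.2 h
    rw [abs_of_nonneg h]
    linarith
  · have := Real.self_le_sinh_iff.2 (neg_nonneg.2 h)
    rw [Real.sinh_neg] at this
    rw [abs_of_nonpos h]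
    linarith

theorem norm_sin_le_exp (z : ℂ) : ‖Complex.sin z‖ ≤ Real.exp |z.im| := by
  have h1 : ‖exp (-z * I)‖ ≤ Real.exp |z.im| := by simp [Complex.norm_exp, le_abs_self]
  have h2 : ‖exp (z * I)‖ ≤ Real.exp |z.im| := by simp [Complex.norm_exp, neg_le_abs]
  rw [Complex.sin, norm_div, norm_mul, norm_I, mul_one, RCLike.norm_ofNat,
    div_le_iff₀ two_pos]
  linarith [norm_sub_le (exp (-z * I)) (exp (z * I))]

theorem norm_inv_Gamma_le {w : ℂ} (h1 : 1 / 2 ≤ w.re) (h2 : w.re ≤ 2) (ht : 1 ≤ |w.im|) :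
    ‖(Complex.Gamma w)⁻¹‖ ≤ 2 * Real.exp (π * |w.im|) := by
  have hrefl := Complex.Gamma_mul_Gamma_one_sub w
  have hsin : Complex.sin (π * w) ≠ 0 := by
    intro h
    obtain ⟨k, hk⟩ := Complex.sin_eq_zero_iff.1 h
    have := congrArg Complex.im hk
    simp [Real.pi_ne_zero] at this
    rw [this, abs_zero] at ht
    linarith
  have hG : Complex.Gamma w ≠ 0 := Complex.Gamma_ne_zero_of_re_pos (by linarith)
  have e : (Complex.Gamma w)⁻¹ = Complex.sin (π * w) / π * Complex.Gamma (1 - w) := by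
    have hπ : (π : ℂ) ≠ 0 := ofReal_ne_zero.2 Real.pi_ne_zero
    rw [eq_div_iff hsin] at hrefl
    refine inv_eq_of_mul_eq_one_right ?_
    rw [show Complex.Gamma w * (Complex.sin (π * w) / π * Complex.Gamma (1 - w)) =
      Complex.Gamma w * Complex.Gamma (1 - w) * Complex.sin (π * w) / π by ring, hrefl,
      div_self hπ]
  have hs : ‖Complex.sin (π * w) / π‖ ≤ Real.exp (π * |w.im|) := by
    rw [norm_div, norm_real, Real.norm_of_nonneg Real.pi_pos.le, div_le_iff₀ Real.pi_pos]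
    refine ((norm_sin_le_exp _).trans (le_of_eq ?_)).trans
      (le_mul_of_one_le_right (Real.exp_pos _).le (by linarith [Real.pi_gt_three]))
    simp [abs_mul, abs_of_pos Real.pi_pos]
  have hn1 : (1 : ℝ) ≤ ‖1 - w‖ := ht.trans (by simpa using abs_im_le_norm (1 - w))
  have hn2 : (1 : ℝ) ≤ ‖2 - w‖ := ht.trans (by simpa using abs_im_le_norm (2 - w))
  have hΓ : ‖Complex.Gamma (1 - w)‖ ≤ 2 := by
    have h3 : Complex.Gamma (3 - w) = (2 - w) * ((1 - w) * Complex.Gamma (1 - w)) := by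
      rw [← Complex.Gamma_add_one _ (norm_pos_iff.1 (by linarith)),
        show (1 : ℂ) - w + 1 = 2 - w by ring,
        ← Complex.Gamma_add_one _ (norm_pos_iff.1 (by linarith)),
        show (2 : ℂ) - w + 1 = 3 - w by ring]
    have hle : ‖Complex.Gamma (3 - w)‖ ≤ 2 := by
      refine (FA.HeckeBS.norm_Gamma_le_re (by simp; linarith)).trans ?_
      have hm := Real.convexOn_Gamma.le_on_segment (x := 1) (y := 3) (z := (3 - w).re)
        (by norm_num) (by norm_num) (by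
          rw [segment_eq_Icc (by norm_num)]
          simp
          constructor <;> linarith)
      rw [Real.Gamma_one, Real.Gamma_ofNat_eq_factorial] at hm
      norm_num [Nat.factorial] at hm ⊢
      exact hm
    rw [h3, norm_mul, norm_mul] at hle
    exact ((le_mul_of_one_le_left (norm_nonneg _) hn1).trans
      (le_mul_of_one_le_left (by positivity) hn2)).trans hle
  rw [e, norm_mul, mul_comm (2 : ℝ)]
  exact mul_le_mul hs hΓ (norm_nonneg _) (Real.exp_pos _).le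

theorem invZeta_one_sub {w : ℂ} (hw : ∀ n : ℕ, w ≠ -n) (hw1 : w ≠ 1) (hw0 : w ≠ 0) :
    invZeta (1 - w) = (2 * (2 * π : ℂ) ^ (-w))⁻¹ * (Complex.Gamma w)⁻¹ *
      (Complex.cos (π * w / 2))⁻¹ * invZeta w := by
  rw [invZeta_eq (fun h => hw0 (by linear_combination -h)), riemannZeta_one_sub hw hw1,
    invZeta_eq hw1, mul_inv, mul_inv, mul_inv]

theorem norm_two_pi_cpow (w : ℂ) :
    ‖(2 * (2 * π : ℂ) ^ (-w))⁻¹‖ = (2 * π) ^ w.re / 2 := by
  rw [norm_inv, norm_mul, RCLike.norm_ofNat,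
    show (2 : ℂ) * π = ((2 * π : ℝ) : ℂ) by push_cast; ring,
    norm_cpow_eq_rpow_re_of_pos (by positivity), neg_re, Real.rpow_neg (by positivity), mul_inv,
    inv_inv]
  ring

/-- The functional equation as a bound for `1 / ζ`. -/
theorem norm_invZeta_reflect {w : ℂ} (h1 : 1 / 2 ≤ w.re) (h2 : w.re ≤ 2) (ht : 1 ≤ |w.im|) :
    ‖invZeta (1 - w)‖ ≤ 64 * Real.exp (π * |w.im|) * ‖invZeta w‖ := by
  have hne : ∀ c : ℂ, c.im = 0 → w ≠ c := fun c hc h => by
    rw [h, hc, abs_zero] at ht; linarith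
  rw [invZeta_one_sub (fun n => hne _ (by simp)) (hne _ (by simp)) (hne _ (by simp)), norm_mul,
    norm_mul, norm_mul, norm_two_pi_cpow]
  refine mul_le_mul_of_nonneg_right ?_ (norm_nonneg _)
  have hp : (2 * π) ^ w.re / 2 ≤ 32 := by
    have : (2 * π) ^ w.re ≤ (8 : ℝ) ^ (2 : ℝ) :=
      (Real.rpow_le_rpow (by positivity) (by linarith [Real.pi_le_four]) (by linarith)).trans
        (Real.rpow_le_rpow_of_exponent_le (by norm_num) h2)
    norm_num at this
    linarith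
  have hc : ‖(Complex.cos (π * w / 2))⁻¹‖ ≤ 1 := by
    rw [norm_inv]
    refine inv_le_one_of_one_le₀ (le_trans ?_ (abs_im_le_norm_cos _))
    have e : ((π : ℂ) * w / 2).im = π * w.im / 2 := by simp
    rw [e, abs_div, abs_mul, abs_of_pos Real.pi_pos, abs_two, le_div_iff₀ two_pos]
    nlinarith [Real.pi_gt_three]
  calc (2 * π) ^ w.re / 2 * ‖(Complex.Gamma w)⁻¹‖ * ‖(Complex.cos (π * w / 2))⁻¹‖
      ≤ 32 * (2 * Real.exp (π * |w.im|)) * 1 :=
        mul_le_mul (mul_le_mul hp (norm_inv_Gamma_le h1 h2 ht) (norm_nonneg _) (by norm_num)) hc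
          (norm_nonneg _) (by positivity)
    _ = _ := by ring

/-- Grönwall along a segment with `‖ζ'/ζ‖ ≤ L`. -/
theorem norm_invZeta_segment {u t L K : ℝ} (h1 : 1 / 2 ≤ u) (h2 : u ≤ 3 / 2) (ht : t ≠ 0)
    (hz : ∀ v : ℝ, 1 / 2 ≤ v → v ≤ 3 / 2 → riemannZeta ((v : ℂ) + t * I) ≠ 0)
    (hL : ∀ v : ℝ, 1 / 2 ≤ v → v ≤ 3 / 2 → ‖negLogDeriv ((v : ℂ) + t * I)‖ ≤ L)
    (hK : ‖invZeta (((3 / 2 : ℝ) : ℂ) + t * I)‖ ≤ K) :
    ‖invZeta ((u : ℂ) + t * I)‖ ≤ K * Real.exp L := by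
  obtain ⟨f, hf⟩ : ∃ f : ℝ → ℂ, f = fun v => (riemannZeta (((3 / 2 - v : ℝ) : ℂ) + t * I))⁻¹ :=
    ⟨_, rfl⟩
  have hne : ∀ v : ℝ, (v : ℂ) + t * I ≠ 1 := fun v h => ht (by simpa using congrArg Complex.im h)
  have hder : ∀ v ∈ Icc (0 : ℝ) (3 / 2 - u), HasDerivAt f
      (-(negLogDeriv (((3 / 2 - v : ℝ) : ℂ) + t * I)) * f v) v := by
    intro v hv
    have hd := ((differentiableAt_riemannZeta (hne (3 / 2 - v))).hasDerivAt.fun_inv
      (hz _ (by linarith [hv.2]) (by linarith [hv.1])))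
    have hin : HasDerivAt (fun x : ℝ => ((3 / 2 - x : ℝ) : ℂ) + t * I) (-1) v := by
      exact ((((hasDerivAt_id v).const_sub (3 / 2)).ofReal_comp).add_const
        ((t : ℂ) * I)).congr_deriv (by simp)
    rw [hf]
    refine (hd.comp v hin).congr_deriv ?_
    rw [negLogDeriv_eq (by simp; linarith [hv.2]) (hne _)
      (hz _ (by linarith [hv.2]) (by linarith [hv.1]))]
    simp only
    field_simp
  have hb := norm_le_gronwallBound_of_norm_deriv_right_le (ε := 0) (K := L) (δ := K)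
    (f' := fun v => -(negLogDeriv (((3 / 2 - v : ℝ) : ℂ) + t * I)) * f v)
    (HasDerivAt.continuousOn hder)
    (fun v hv => (hder v (Ico_subset_Icc_self hv)).hasDerivWithinAt)
    (by rw [hf]; simp only [sub_zero]; rwa [← invZeta_eq (hne _)])
    (fun v hv => by
      rw [add_zero, norm_mul, norm_neg]
      exact mul_le_mul_of_nonneg_right (hL _ (by linarith [hv.2]) (by linarith [hv.1]))
        (norm_nonneg _)) (3 / 2 - u) ⟨by linarith, le_rfl⟩
  rw [gronwallBound_ε0, hf] at hb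
  simp only [sub_zero, sub_sub_cancel] at hb
  rw [invZeta_eq (hne u)]
  refine hb.trans (mul_le_mul_of_nonneg_left (Real.exp_le_exp.2 ?_) ((norm_nonneg _).trans hK))
  have := (norm_nonneg _).trans (hL u h1 h2)
  nlinarith

/-- **Good heights**, with `1 / ζ (σ + iT) = exp (O (log² T))` for `1/2 ≤ σ ≤ 2`. -/
theorem exists_heights_log : ∃ (T : ℕ → ℝ) (A : ℝ), 1 ≤ A ∧ (∀ m : ℕ, (m : ℝ) + 3 ≤ T m) ∧
    (∀ m ρ, xiFn ρ = 0 → |ρ.im| ≠ T m) ∧
    ∀ (m : ℕ) (v s : ℝ), 1 / 2 ≤ v → v ≤ 2 → |s| = T m →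
      ‖invZeta ((v : ℂ) + s * I)‖ ≤ A * Real.exp (A * ell (T m) ^ 2) := by
  obtain ⟨K, hK1, hK⟩ := exists_invZeta_right
  obtain ⟨C, hC, hb⟩ := exists_horizontal
  obtain ⟨c, hc, hheight⟩ := exists_good_height
  choose T hT1 hT2 hgap using fun m : ℕ => hheight (m + 3)
  obtain ⟨d, hd⟩ : ∃ d, d = min c 1 := ⟨_, rfl⟩
  have hd0 : 0 < d := hd ▸ lt_min hc one_pos
  have hlow : ∀ m : ℕ, (m : ℝ) + 3 ≤ T m := fun m => le_trans (by push_cast; rfl) (hT1 m)
  have hA : K ≤ K + C / d := le_add_of_nonneg_right (by positivity)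
  refine ⟨T, K + C / d, hK1.trans hA, hlow, fun m ρ hρ h => ?_, fun m v s hv hv2 hs => ?_⟩
  · have := hgap m ρ hρ
    rw [h, sub_self, abs_zero] at this
    linarith [div_pos hc (ell_pos ((m + 3 : ℕ) : ℝ))]
  have hT3 : 3 ≤ T m := le_trans (by linarith [(Nat.cast_nonneg m : (0 : ℝ) ≤ m)]) (hlow m)
  have hgap' : ∀ ρ, xiFn ρ = 0 →
      d / ell ((m + 3 : ℕ) : ℝ) ≤ |(|ρ.im| - |s|)| := fun ρ hρ => by
    rw [hs]
    exact (div_le_div_of_nonneg_right (hd ▸ min_le_left c 1) (ell_pos _).le).trans (hgap m ρ hρ)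
  rcases le_or_gt (3 / 2) v with hbig | hsmall
  · exact ((hK _ (by simpa using hbig)).trans hA).trans (le_mul_of_one_le_right
      (le_trans (by linarith) hA) (Real.one_le_exp (by positivity)))
  have hs0 : s ≠ 0 := fun h => by rw [h, abs_zero] at hs; linarith
  have hδ : d / ell ((m + 3 : ℕ) : ℝ) ≤ 1 := by
    rw [div_le_one (ell_pos _)]
    linarith [four_le_ell ((m + 3 : ℕ) : ℝ), hd ▸ min_le_right c 1]
  refine (norm_invZeta_segment (L := C / d * ell (T m) ^ 2) hv hsmall.le hs0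
    (fun x hx hx2 hz => ?_) (fun x hx hx2 => ?_) (hK _ (by simp))).trans ?_
  · have hx1 : (x : ℂ) + s * I ≠ 1 := fun h => hs0 (by simpa using congrArg Complex.im h)
    have := hgap' _ ((xiFn_eq_zero_iff (by simp; linarith) hx1).2 hz)
    rw [show ((x : ℂ) + s * I).im = s by simp, sub_self, abs_zero] at this
    linarith [div_pos hd0 (ell_pos ((m + 3 : ℕ) : ℝ))]
  · refine (hb x s _ (by linarith) hx2 (by rw [hs]; exact hT3) (div_pos hd0 (ell_pos _)) hδ
      hgap').trans ?_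
    have e1 : ell s = ell (T m) := by rw [ell, ell, hs, abs_of_pos (by linarith : 0 < T m)]
    have e2 : ell ((m + 3 : ℕ) : ℝ) ≤ ell (T m) := ell_mono (by
      rw [Nat.abs_cast, abs_of_pos (by linarith : 0 < T m)]; exact hT1 m)
    rw [e1, div_div_eq_mul_div, div_le_iff₀ hd0]
    calc C * ell (T m) * ell ((m + 3 : ℕ) : ℝ) ≤ C * (ell (T m) * ell (T m)) := by
          rw [mul_assoc]
          exact mul_le_mul_of_nonneg_left (mul_le_mul_of_nonneg_left e2 (ell_pos _).le) hC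
      _ = _ := by field_simp
  · refine mul_le_mul hA (Real.exp_le_exp.2 (mul_le_mul_of_nonneg_right ?_ (sq_nonneg _)))
      (Real.exp_pos _).le (le_trans (by linarith) hA)
    linarith

/-- **Good heights**, across `-1 ≤ σ ≤ 3`. -/
theorem exists_heights : ∃ (T : ℕ → ℝ) (B : ℝ), (∀ m : ℕ, (m : ℝ) + 3 ≤ T m) ∧
    (∀ m ρ, xiFn ρ = 0 → |ρ.im| ≠ T m) ∧
    ∀ (m : ℕ) (u t : ℝ), -1 ≤ u → u ≤ 3 → |t| = T m →
      ‖invZeta ((u : ℂ) + t * I)‖ ≤ Real.exp (B * T m) := by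
  obtain ⟨K, hK1, hK⟩ := exists_invZeta_right
  obtain ⟨T, A, hA1, hlow, hord, hmid⟩ := exists_heights_log
  obtain ⟨B, hB⟩ : ∃ B, B = 64 + K + π + A + A * 140 := ⟨_, rfl⟩
  refine ⟨T, B, hlow, hord, fun m u t hu hu3 ht => ?_⟩
  have hT3 : 3 ≤ T m := le_trans (by linarith [(Nat.cast_nonneg m : (0 : ℝ) ≤ m)]) (hlow m)
  have e3 : ell (T m) ^ 2 ≤ 140 * T m := by
    have hy : 0 < |T m| + 100 := by positivity
    have h := Real.log_le_rpow_div hy.le (show (0 : ℝ) < 1 / 2 by norm_num)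
    rw [← Real.sqrt_eq_rpow, ← ell] at h
    have h2 : ell (T m) ^ 2 ≤ (√(|T m| + 100) / (1 / 2)) ^ 2 :=
      pow_le_pow_left₀ (ell_pos _).le h 2
    rw [div_pow, Real.sq_sqrt hy.le, abs_of_pos (by linarith : 0 < T m)] at h2
    norm_num at h2
    linarith
  have hcoef : ∀ {c : ℝ}, 1 ≤ c → c ≤ Real.exp (c * T m) := fun {c} hc =>
    le_trans (by nlinarith) (Real.add_one_le_exp _)
  have hmid' : ∀ v s : ℝ, 1 / 2 ≤ v → v ≤ 2 → |s| = T m →
      ‖invZeta ((v : ℂ) + s * I)‖ ≤ Real.exp ((A + A * 140) * T m) := fun v s hv hv2 hs => by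
    refine (hmid m v s hv hv2 hs).trans ?_
    rw [add_mul, Real.exp_add]
    refine mul_le_mul (hcoef hA1) (Real.exp_le_exp.2 ?_) (Real.exp_pos _).le (Real.exp_pos _).le
    rw [mul_assoc]
    exact mul_le_mul_of_nonneg_left e3 (by linarith)
  rcases le_or_gt (1 / 2) u with hr | hl
  · rcases le_or_gt u 2 with h2 | h2
    · refine (hmid' u t hr h2 ht).trans (Real.exp_le_exp.2 ?_)
      rw [hB]
      nlinarith [Real.pi_pos]
    · refine (hK _ (by simp; linarith)).trans ((hcoef hK1).trans (Real.exp_le_exp.2 ?_))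
      rw [hB]
      nlinarith [Real.pi_pos]
  · have e : (u : ℂ) + t * I = 1 - (((1 - u : ℝ) : ℂ) + ((-t : ℝ) : ℂ) * I) := by push_cast; ring
    rw [e]
    refine (norm_invZeta_reflect (by simp; linarith) (by simp; linarith)
      (by simp; linarith)).trans ?_
    have him : |(((1 - u : ℝ) : ℂ) + ((-t : ℝ) : ℂ) * I).im| = T m := by simp [ht]
    rw [him]
    calc 64 * Real.exp (π * T m) * ‖invZeta (((1 - u : ℝ) : ℂ) + ((-t : ℝ) : ℂ) * I)‖
        ≤ Real.exp (64 * T m) * Real.exp (π * T m) * Real.exp ((A + A * 140) * T m) :=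
          mul_le_mul (mul_le_mul_of_nonneg_right (hcoef (by norm_num)) (Real.exp_pos _).le)
            (hmid' (1 - u) (-t) (by linarith) (by linarith) (by rw [abs_neg, ht]))
            (norm_nonneg _) (by positivity)
      _ ≤ Real.exp (B * T m) := by
          rw [← Real.exp_add, ← Real.exp_add, hB]
          refine Real.exp_le_exp.2 ?_
          nlinarith

/-- `x cosh x ≥ sinh x / 2` in absolute values. -/
theorem abs_sinh_le_cosh (x : ℝ) : |Real.sinh x| ≤ 2 * |x| * Real.cosh x := by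
  refine (FA.HeckeBS.abs_sinh_le x).trans ?_
  rw [mul_comm (2 : ℝ), mul_assoc]
  refine mul_le_mul_of_nonneg_left ?_ (abs_nonneg _)
  rw [← Real.cosh_abs, Real.cosh_eq]
  linarith [Real.exp_pos (-|x|)]

/-- `|Γ (1 + iy)| cosh (π y / 2)` is bounded below. -/
theorem half_le_Gamma_cosh (y : ℝ) :
    1 / 2 ≤ ‖Complex.Gamma (1 + y * I)‖ * Real.cosh (π * y / 2) := by
  rcases eq_or_ne y 0 with rfl | hy
  · norm_num
  obtain ⟨g, hg⟩ : ∃ g, g = ‖Complex.Gamma (1 + y * I)‖ := ⟨_, rfl⟩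
  obtain ⟨x, hx⟩ : ∃ x, x = π * y / 2 := ⟨_, rfl⟩
  have hsq : g * g = |π * y| / |Real.sinh (π * y)| := by
    have hz : (y : ℂ) * I ≠ 0 := mul_ne_zero (ofReal_ne_zero.2 hy) I_ne_zero
    have hconj : ‖Complex.Gamma (1 - y * I)‖ = g := by
      rw [hg, show (1 : ℂ) - y * I = (starRingEnd ℂ) (1 + (y : ℂ) * I) by simp [sub_eq_add_neg],
        Complex.Gamma_conj, Complex.norm_conj]
    have h := congrArg (fun z => ‖(y : ℂ) * I * z‖) (Complex.Gamma_mul_Gamma_one_sub ((y : ℂ) * I))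
    simp only [← mul_assoc] at h
    rw [← Complex.Gamma_add_one _ hz, add_comm, norm_mul, hconj, ← hg,
      show (π : ℂ) * (y : ℂ) * I = ((π * y : ℝ) : ℂ) * I by push_cast; ring, Complex.sin_mul_I,
      norm_mul, norm_mul, norm_div, norm_mul, norm_I, mul_one, mul_one, norm_real, norm_real,
      ← ofReal_sinh, norm_real, Real.norm_eq_abs, Real.norm_eq_abs, Real.norm_eq_abs,
      abs_of_pos Real.pi_pos] at h
    rw [h, abs_mul, abs_of_pos Real.pi_pos]
    ring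
  have hs0 : 0 < |Real.sinh (π * y)| :=
    abs_pos.2 (Real.sinh_eq_zero.not.2 (mul_ne_zero Real.pi_ne_zero hy))
  have h2 : |π * y| = 2 * |x| := by rw [hx, abs_div, abs_two]; ring
  have h3 : |Real.sinh (π * y)| = 2 * |Real.sinh x| * Real.cosh x := by
    rw [show π * y = 2 * x by rw [hx]; ring, Real.sinh_two_mul, abs_mul, abs_mul, abs_two,
      abs_of_pos (Real.cosh_pos x)]
  have hA : 1 / 2 ≤ g * g * Real.cosh x ^ 2 := by
    rw [hsq, div_mul_eq_mul_div, le_div_iff₀ hs0, h2, h3]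
    nlinarith [mul_le_mul_of_nonneg_right (abs_sinh_le_cosh x) (Real.cosh_pos x).le]
  rw [← hg, ← hx]
  have hg0 : 0 ≤ g * Real.cosh x := mul_nonneg (hg ▸ norm_nonneg _) (Real.cosh_pos x).le
  nlinarith

/-- **The left line.** -/
theorem exists_invZeta_left : ∃ C, 0 ≤ C ∧ ∀ t : ℝ,
    ‖invZeta (((-1 : ℝ) : ℂ) + t * I)‖ ≤ C / (1 + |t|) := by
  obtain ⟨K, hK1, hK⟩ := exists_invZeta_right
  refine ⟨4 * (2 * π) ^ (2 : ℝ) * K, by positivity, fun t => ?_⟩
  obtain ⟨w, hw⟩ : ∃ w : ℂ, w = 2 + ((-t : ℝ) : ℂ) * I := ⟨_, rfl⟩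
  have hre : w.re = 2 := by simp [hw]
  rw [show ((-1 : ℝ) : ℂ) + t * I = 1 - w by rw [hw]; push_cast; ring,
    invZeta_one_sub (fun n h => by have := congrArg Complex.re h; simp [hre] at this
                                   linarith [(Nat.cast_nonneg n : (0 : ℝ) ≤ n)])
      (fun h => by rw [h] at hre; simp at hre) (fun h => by rw [h] at hre; simp at hre),
    norm_mul, norm_mul, norm_mul, norm_two_pi_cpow, hre, norm_inv, norm_inv]
  have hcos : ‖Complex.cos (π * w / 2)‖ = Real.cosh (π * t / 2) := by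
    rw [show (π : ℂ) * w / 2 = -((π * t / 2 : ℝ) : ℂ) * I + π by rw [hw]; push_cast; ring,
      Complex.cos_add_pi, neg_mul, Complex.cos_neg, Complex.cos_mul_I, norm_neg, ← ofReal_cosh,
      norm_real, Real.norm_of_nonneg (Real.cosh_pos _).le]
  have hΓ : ‖Complex.Gamma w‖ = ‖(1 : ℂ) + ((-t : ℝ) : ℂ) * I‖ *
      ‖Complex.Gamma (1 + ((-t : ℝ) : ℂ) * I)‖ := by
    rw [← norm_mul, ← Complex.Gamma_add_one _ fun h => by
      have := congrArg Complex.re h; simp at this, hw]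
    ring_nf
  have hb := half_le_Gamma_cosh (-t)
  rw [show π * (-t) / 2 = -(π * t / 2) by ring, Real.cosh_neg] at hb
  have hn : (1 + |t|) / 2 ≤ ‖(1 : ℂ) + ((-t : ℝ) : ℂ) * I‖ := by
    have a1 : (1 : ℝ) ≤ ‖(1 : ℂ) + ((-t : ℝ) : ℂ) * I‖ := by
      simpa using abs_re_le_norm ((1 : ℂ) + ((-t : ℝ) : ℂ) * I)
    have a2 : |t| ≤ ‖(1 : ℂ) + ((-t : ℝ) : ℂ) * I‖ := by
      simpa using abs_im_le_norm ((1 : ℂ) + ((-t : ℝ) : ℂ) * I)
    linarith
  have hprod : (1 + |t|) / 4 ≤ ‖Complex.Gamma w‖ * ‖Complex.cos (π * w / 2)‖ := by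
    rw [hΓ, hcos, mul_assoc, show (1 + |t|) / 4 = (1 + |t|) / 2 * (1 / 2) by ring]
    exact mul_le_mul hn hb (by norm_num) (norm_nonneg _)
  calc (2 * π) ^ (2 : ℝ) / 2 * ‖Complex.Gamma w‖⁻¹ * ‖Complex.cos (π * w / 2)‖⁻¹ * ‖invZeta w‖
      = (2 * π) ^ (2 : ℝ) / 2 * (‖Complex.Gamma w‖ * ‖Complex.cos (π * w / 2)‖)⁻¹ *
          ‖invZeta w‖ := by rw [mul_inv]; ring
    _ ≤ (2 * π) ^ (2 : ℝ) * ((1 + |t|) / 4)⁻¹ * K := by
        refine mul_le_mul (mul_le_mul ?_ (inv_anti₀ (by positivity) hprod) (by positivity)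
          (by positivity)) (hK w (by rw [hre]; norm_num)) (norm_nonneg _) (by positivity)
        linarith [Real.rpow_nonneg (show (0 : ℝ) ≤ 2 * π by positivity) (2 : ℝ)]
    _ = _ := by field_simp

/-- Right of `-2` the zeros of `ζ₁` are those of `ξ`. -/
theorem xiFn_of_zeta₁_zero {s : ℂ} (hs : -2 < s.re) (h : riemannZeta₁ s = 0) : xiFn s = 0 := by
  have h1 : s ≠ 1 := fun e => by rw [e, riemannZeta₁_one] at h; exact one_ne_zero h
  have hz : riemannZeta s = 0 := by rw [riemannZeta_eq_inv_sub_mul h1, h, mul_zero]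
  rcases lt_or_ge 0 s.re with hp | hn
  · exact (xiFn_eq_zero_iff hp h1).2 hz
  exfalso
  have h0 : s ≠ 0 := fun e => by rw [e, riemannZeta_zero] at hz; norm_num at hz
  obtain ⟨w, hw⟩ : ∃ w : ℂ, w = 1 - s := ⟨_, rfl⟩
  have hwre : 1 ≤ w.re := by simp [hw]; linarith
  have hw0 : 0 < w.re := by linarith
  have hw1 : w ≠ 1 := fun e => h0 (by rw [hw] at e; linear_combination -e)
  rw [show s = 1 - w by rw [hw]; ring, riemannZeta_one_sub
    (fun n e => by rw [e] at hw0; simp at hw0; linarith [(Nat.cast_nonneg n : (0 : ℝ) ≤ n)])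
    hw1] at hz
  simp only [mul_eq_zero, OfNat.ofNat_ne_zero, Complex.cpow_eq_zero_iff, ofReal_eq_zero,
    Real.pi_ne_zero, false_or, or_false, false_and, Complex.Gamma_ne_zero_of_re_pos hw0,
    riemannZeta_ne_zero_of_one_le_re hwre] at hz
  obtain ⟨k, hk⟩ := Complex.cos_eq_zero_iff.1 hz
  have hwk : w = 2 * (k : ℂ) + 1 := by
    have := ofReal_ne_zero.2 Real.pi_ne_zero
    field_simp at hk
    linear_combination hk
  have e1 : w.re = 2 * (k : ℝ) + 1 := by rw [hwk]; simp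
  have hlt : w.re < 3 := by simp [hw]; linarith
  rw [e1] at hwre hlt
  have hk0 : k = 0 := by
    have a : (0 : ℝ) ≤ k := by linarith
    have b : (k : ℝ) < 1 := by linarith
    have a' : (0 : ℤ) ≤ k := by exact_mod_cast a
    have b' : k < 1 := by exact_mod_cast b
    omega
  exact hw1 (by rw [hwk, hk0]; simp)

end FA.MertensOmega

end
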