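import Fermat.Agent.MertensOmega.Series
import Fermat.Agent.HardyZeros.Main
import Fermat.Agent.XiProduct.Criteria

/-!
# Ingham's kernel

With `P u = ∏ (1 + cos (γ u + φ)) ≥ 0` over finitely many ordinates, the series of the tail
weighted by `P (log n)` is nonnegative. At `z → 1/2` it leaves `C - |e| ∑ 1 / |ρ ζ' ρ|`, provided
no sum of two or more of the `± γ` is `0` or an ordinate.
-/

set_option autoImplicit false

noncomputable section

open Complex Filter Topology Set
open FA.VonKoch (invZeta)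
open FA.OneSided (moebiusSum)
open scoped ComplexConjugate

namespace FA.MertensOmega

/-- `0`, `1`, `-1`. -/
def sgn : Fin 3 → ℝ := ![0, 1, -1]

/-- The weights of `1`, `exp (i (γ u + φ))` and `exp (-i (γ u + φ))` in `1 + cos (γ u + φ)`. -/
def wt (φ : ℝ) (j : Fin 3) : ℂ := if j = 0 then 1 else exp (sgn j * φ * I) / 2

variable {ι : Type*} [Fintype ι] [DecidableEq ι]

/-- The frequency of a choice of signs. -/
def freq (γ : ι → ℝ) (ε : ι → Fin 3) : ℝ := ∑ i, sgn (ε i) * γ i

/-- The weight of a choice of signs. -/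
def weight (φ : ι → ℝ) (ε : ι → Fin 3) : ℂ := ∏ i, wt (φ i) (ε i)

theorem sum_wt (γ φ u : ℝ) :
    ∑ j : Fin 3, wt φ j * exp (((sgn j * γ * u : ℝ) : ℂ) * I) =
      ((1 + Real.cos (γ * u + φ) : ℝ) : ℂ) := by
  rw [Fin.sum_univ_three, ofReal_add, ofReal_one, ofReal_cos, Complex.cos]
  simp only [wt, sgn, Matrix.cons_val_zero, Matrix.cons_val_one, Matrix.cons_val_two,
    if_true, Matrix.tail_cons, Matrix.head_cons, show ((1 : Fin 3) = 0) = False by decide,
    show ((2 : Fin 3) = 0) = False by decide, if_false]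
  push_cast
  rw [zero_mul, zero_mul, zero_mul, Complex.exp_zero, mul_one, div_mul_eq_mul_div,
    div_mul_eq_mul_div, ← Complex.exp_add, ← Complex.exp_add]
  ring_nf

theorem sum_weight (γ φ : ι → ℝ) (u : ℝ) :
    ∑ ε : ι → Fin 3, weight φ ε * exp (((freq γ ε * u : ℝ) : ℂ) * I) =
      ((∏ i, (1 + Real.cos (γ i * u + φ i)) : ℝ) : ℂ) := by
  rw [ofReal_prod, ← Finset.prod_congr rfl fun i _ => sum_wt (γ i) (φ i) u, Fintype.prod_sum]
  refine Finset.sum_congr rfl fun ε _ => ?_
  rw [weight, Finset.prod_mul_distrib, ← Complex.exp_sum]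
  congr 2
  rw [freq, Finset.sum_mul, ofReal_sum, Finset.sum_mul]

variable {C e : ℝ} {N : ℕ}

/-- **The weighted series is nonnegative.** -/
theorem re_weighted_nonneg (hN1 : 1 ≤ N) (he : e ≠ 0)
    (hN : ∀ n, N ≤ n → e * moebiusSum n ≤ C * √n) (γ φ : ι → ℝ) {δ : ℝ} (hδ : 0 < δ) :
    0 ≤ (∑ ε : ι → Fin 3, weight φ ε *
      ((δ : ℂ) * cont C e N (onLine (-freq γ ε) + δ))).re := by
  have h := hasSum_sum (s := (Finset.univ : Finset (ι → Fin 3))) fun ε _ =>
    ((hasSum_tail hN1 he hN (z := onLine (-freq γ ε) + δ)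
      (by simp [onLine_re]; linarith)).mul_left (δ : ℂ)).mul_left (weight φ ε)
  refine (Complex.hasSum_re h).nonneg fun n => ?_
  have e1 : ∀ ε : ι → Fin 3, weight φ ε * ((δ : ℂ) * ((tail C e N n : ℂ) *
      exp (-(onLine (-freq γ ε) + δ + 1) * Real.log n))) =
      ((δ * tail C e N n * Real.exp (-(3 / 2 + δ) * Real.log n) : ℝ) : ℂ) *
        (weight φ ε * exp (((freq γ ε * Real.log n : ℝ) : ℂ) * I)) := fun ε => by
    rw [show -(onLine (-freq γ ε) + δ + 1) * (Real.log n : ℂ) =
      ((-(3 / 2 + δ) * Real.log n : ℝ) : ℂ) + ((freq γ ε * Real.log n : ℝ) : ℂ) * I by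
        rw [onLine]; push_cast; ring, Complex.exp_add, ← ofReal_exp]
    push_cast
    ring
  rw [Finset.sum_congr rfl fun ε _ => e1 ε, ← Finset.mul_sum, sum_weight, ← ofReal_mul, ofReal_re]
  exact mul_nonneg (mul_nonneg (mul_nonneg hδ.le (tail_nonneg hN n)) (Real.exp_pos _).le)
    (Finset.prod_nonneg fun i _ => by linarith [Real.neg_one_le_cos (γ i * Real.log n + φ i)])

/-- The residue, `0` off the zeros. -/
def residVal (w : ℝ) : ℂ := if riemannZeta (onLine w) = 0 then resid w else 0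

theorem tendsto_cont_residVal (hN1 : 1 ≤ N) (he : e ≠ 0)
    (hN : ∀ n, N ≤ n → e * moebiusSum n ≤ C * √n) (w : ℝ) :
    Tendsto (fun δ : ℝ => (δ : ℂ) * cont C e N (onLine w + δ)) (𝓝[>] 0)
      (𝓝 ((if w = 0 then (C : ℂ) else 0) - e * residVal w)) := by
  by_cases hw : w = 0
  · subst hw
    have h := zeta_half_ne_zero
    simpa [residVal, h] using tendsto_cont (C := C) (e := e) (N := N) (tendsto_invZeta_regular h)
  by_cases hz : riemannZeta (onLine w) = 0
  · have := tendsto_cont (C := C) (e := e) (N := N)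
      (tendsto_invZeta_simple hz (deriv_ne_zero hN1 he hN hw hz))
    rwa [div_eq_mul_inv, ← mul_inv, mul_comm _ (onLine w), ← resid,
      show resid w = residVal w by rw [residVal, if_pos hz]] at this
  · simpa [residVal, hz] using tendsto_cont (C := C) (e := e) (N := N) (tendsto_invZeta_regular hz)

/-- The sign choices with one nonzero entry. -/
def oneSign (i : ι) (j : Fin 3) : ι → Fin 3 := Pi.single i j

theorem freq_oneSign (γ : ι → ℝ) (i : ι) (j : Fin 3) : freq γ (oneSign i j) = sgn j * γ i := by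
  rw [freq, Finset.sum_eq_single i (fun k _ hk => ?_) (fun h => absurd (Finset.mem_univ i) h)]
  · simp [oneSign]
  · simp [oneSign, Pi.single_eq_of_ne hk, sgn]

theorem weight_oneSign (φ : ι → ℝ) (i : ι) (j : Fin 3) :
    weight φ (oneSign i j) = wt (φ i) j := by
  rw [weight, Finset.prod_eq_single i (fun k _ hk => ?_) (fun h => absurd (Finset.mem_univ i) h)]
  · simp [oneSign]
  · simp [oneSign, Pi.single_eq_of_ne hk, wt]

/-- **Ingham's inequality**: the chosen residues are at most `C` in sum. -/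
theorem sum_resid_le (hN1 : 1 ≤ N) (he : e ≠ 0)
    (hN : ∀ n, N ≤ n → e * moebiusSum n ≤ C * √n) (γ : ι → ℝ) (hγ : ∀ i, γ i ≠ 0)
    (hz : ∀ i, riemannZeta (onLine (γ i)) = 0)
    (hfree : ∀ ε : ι → Fin 3, (∃ i j, i ≠ j ∧ ε i ≠ 0 ∧ ε j ≠ 0) →
      freq γ ε ≠ 0 ∧ riemannZeta (onLine (freq γ ε)) ≠ 0) :
    |e| * ∑ i, ‖resid (γ i)‖ ≤ C := by
  obtain ⟨φ, hφ⟩ : ∃ φ : ι → ℝ, φ = fun i => arg (e * resid (γ i)) := ⟨_, rfl⟩
  have hlim := tendsto_finsetSum (Finset.univ : Finset (ι → Fin 3)) fun ε _ =>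
    (tendsto_cont_residVal hN1 he hN (-freq γ ε)).const_mul (weight φ ε)
  have hpos := ge_of_tendsto ((Complex.continuous_re.tendsto _).comp hlim)
    (eventually_mem_nhdsWithin.mono fun δ hδ => re_weighted_nonneg hN1 he hN γ φ hδ)
  obtain ⟨val, hval⟩ : ∃ val : (ι → Fin 3) → ℂ, val = fun ε => weight φ ε *
      ((if -freq γ ε = 0 then (C : ℂ) else 0) - e * residVal (-freq γ ε)) := ⟨_, rfl⟩
  have hv0 : val (fun _ => 0) = C := by
    have hf : freq γ (fun _ => 0) = 0 := by simp [freq, sgn]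
    have h := zeta_half_ne_zero
    simp [hval, hf, weight, wt, residVal, h]
  have hzero : ∀ ε : ι → Fin 3, (∃ i j, i ≠ j ∧ ε i ≠ 0 ∧ ε j ≠ 0) → val ε = 0 := fun ε hε => by
    obtain ⟨h1, h2⟩ := hfree ε hε
    have h3 : riemannZeta (onLine (-freq γ ε)) ≠ 0 := by
      rw [← conj_onLine, riemannZeta_conj, ne_eq, map_eq_zero]
      exact h2
    simp [hval, h1, residVal, h3]
  have hone : ∀ i, (val (oneSign i 1) + val (oneSign i 2)).re = -(|e| * ‖resid (γ i)‖) := by
    intro i
    have hz' : riemannZeta (onLine (-γ i)) = 0 := by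
      rw [← conj_onLine, riemannZeta_conj, hz i, map_zero]
    simp only [hval, freq_oneSign, weight_oneSign, sgn, Matrix.cons_val_one, Matrix.cons_val_two,
      Matrix.cons_val_zero, Matrix.tail_cons, Matrix.head_cons, one_mul, neg_mul, neg_neg,
      neg_eq_zero, hγ i, if_false, residVal, hz i, hz', if_true, zero_sub, wt,
      show ((1 : Fin 3) = 0) = False by decide, show ((2 : Fin 3) = 0) = False by decide]
    obtain ⟨a, ha⟩ : ∃ a : ℂ, a = e * resid (γ i) := ⟨_, rfl⟩
    have hE : exp (((φ i : ℝ) : ℂ) * I) * (‖a‖ : ℂ) = a := by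
      rw [mul_comm]
      simp only [hφ, ← ha]
      exact norm_mul_exp_arg_mul_I a
    have h2 : exp (-((φ i : ℝ) : ℂ) * I) * a = (‖a‖ : ℂ) := by
      conv_lhs => rw [← hE]
      rw [← mul_assoc, ← Complex.exp_add, neg_mul, neg_add_cancel, Complex.exp_zero, one_mul]
    have h1 : exp (((φ i : ℝ) : ℂ) * I) * conj a = (‖a‖ : ℂ) := by
      have := congrArg conj h2
      rwa [map_mul, ← Complex.exp_conj, map_mul, map_neg, conj_ofReal, conj_I, conj_ofReal,
        neg_mul_neg] at this
    rw [resid_neg, show |e| * ‖resid (γ i)‖ = ‖a‖ by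
      rw [ha, norm_mul, norm_real, Real.norm_eq_abs]]
    have hc : (e : ℂ) * conj (resid (γ i)) = conj a := by rw [ha, map_mul, conj_ofReal]
    push_cast
    simp only [one_mul, neg_one_mul]
    rw [show exp ((φ i : ℂ) * I) / 2 * (-((e : ℂ) * conj (resid (γ i)))) +
        exp (-((φ i : ℂ)) * I) / 2 * (-((e : ℂ) * resid (γ i))) =
      -(exp ((φ i : ℂ) * I) * conj a + exp (-((φ i : ℂ)) * I) * a) / 2 by
        rw [← hc, ← ha]; ring, h1, h2]
    simp
  have hsum : ∑ ε, val ε = C + ∑ i, (val (oneSign i 1) + val (oneSign i 2)) := by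
    have hinj : ∀ i k : ι, ∀ j l : Fin 3, j ≠ 0 → oneSign i j = oneSign k l → i = k ∧ j = l := by
      intro i k j l hj h
      have h1 := congrFun h i
      simp only [oneSign, Pi.single_eq_same] at h1
      rcases eq_or_ne i k with rfl | hik
      · exact ⟨rfl, by simpa using h1⟩
      · rw [Pi.single_eq_of_ne hik] at h1
        exact absurd h1 hj
    have h0 : ∀ i : ι, ∀ j : Fin 3, j ≠ 0 → oneSign i j ≠ fun _ => 0 := fun i j hj h => hj (by
      simpa [oneSign] using congrFun h i)
    rw [← hv0, ← Finset.sum_erase_add _ _ (Finset.mem_univ (fun _ => (0 : Fin 3) : ι → Fin 3)),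
      add_comm]
    congr 1
    rw [Finset.sum_add_distrib, ← Finset.sum_image (f := val)
      (g := fun i => oneSign i 1) (fun i _ k _ h => (hinj i k 1 1 (by decide) h).1),
      ← Finset.sum_image (f := val)
      (g := fun i => oneSign i 2) (fun i _ k _ h => (hinj i k 2 2 (by decide) h).1),
      ← Finset.sum_union]
    · refine (Finset.sum_subset (fun ε hε => ?_) fun ε hε hn => ?_).symm
      · simp only [Finset.mem_union, Finset.mem_image, Finset.mem_univ, true_and] at hε
        refine Finset.mem_erase.2 ⟨?_, Finset.mem_univ _⟩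
        rcases hε with ⟨i, rfl⟩ | ⟨i, rfl⟩
        · exact h0 i 1 (by decide)
        · exact h0 i 2 (by decide)
      · refine hzero ε ?_
        obtain ⟨i, hi⟩ : ∃ i, ε i ≠ 0 := Function.ne_iff.1 (Finset.mem_erase.1 hε).1
        by_contra hno
        push Not at hno
        have he1 : ε = oneSign i (ε i) := funext fun k => by
          rcases eq_or_ne k i with rfl | hk
          · simp [oneSign]
          · simp [oneSign, Pi.single_eq_of_ne hk, hno i k hk.symm hi]
        refine hn ?_
        simp only [Finset.mem_union, Finset.mem_image, Finset.mem_univ, true_and]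
        rcases (show ε i = 1 ∨ ε i = 2 by
          generalize ε i = j at hi ⊢
          revert hi
          revert j
          decide) with h | h
        · exact Or.inl ⟨i, by rw [he1, h]⟩
        · exact Or.inr ⟨i, by rw [he1, h]⟩
    · rw [Finset.disjoint_left]
      intro ε h1 h2
      simp only [Finset.mem_image, Finset.mem_univ, true_and] at h1 h2
      obtain ⟨i, rfl⟩ := h1
      obtain ⟨k, hk⟩ := h2
      exact absurd (hinj k i 2 1 (by decide) hk).2 (by decide)
  rw [show (∑ ε : ι → Fin 3, weight φ ε * ((if -freq γ ε = 0 then (C : ℂ) else 0) -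
    e * residVal (-freq γ ε))) = ∑ ε, val ε by rw [hval], hsum, add_re, re_sum,
    Finset.sum_congr rfl fun i _ => hone i, Finset.sum_neg_distrib, ofReal_re,
    ← Finset.mul_sum] at hpos
  linarith

end FA.MertensOmega

end
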