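import Fermat.Agent.OneSided.Main
import Mathlib.Analysis.Calculus.Deriv.Slope
import Mathlib.Analysis.Complex.Conformal

/-!
# One-sided bounds `e M n ≤ C √n`

The tail of `C √n - e M n` is nonnegative, so its Dirichlet series continues to `re z > 1/2` and
its value on the line through a zero is at most its value at the real point. At `z → ρ` this makes
every zero on the line simple, with `1 / |ρ ζ' ρ| ≤ C`.
-/

set_option autoImplicit false

noncomputable section

open Complex Filter Topology Set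
open FA.VonKoch (invZeta invZeta_eq)
open FA.OneSided (summatory defect moebiusSum)
open scoped ArithmeticFunction.Moebius ComplexConjugate ComplexOrder

namespace FA.MertensOmega

/-- The coefficients of `1 / ζ`. -/
def moebiusC (n : ℕ) : ℂ := ((μ n : ℤ) : ℂ)

/-- `1/2 + i w`. -/
def onLine (w : ℝ) : ℂ := 1 / 2 + (w : ℂ) * I

/-- `1 / (ρ ζ' ρ)` at `ρ = 1/2 + i w`. -/
def resid (w : ℝ) : ℂ := (onLine w * deriv riemannZeta (onLine w))⁻¹

/-- `C √n - e M n` from `N` on. -/
def tail (C e : ℝ) (N n : ℕ) : ℝ := if n < N then 0 else C * √n - e * moebiusSum n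

/-- The coefficients before the cut. -/
def coeff (C e : ℝ) (n : ℕ) : ℂ := ((C * √n - e * moebiusSum n : ℝ) : ℂ)

/-- The removed terms. -/
def headSum (C e : ℝ) (N : ℕ) (z : ℂ) : ℂ :=
  ∑ n ∈ Finset.range N, LSeries.term (coeff C e) (z + 1) n

/-- The continued series of the tail. -/
def cont (C e : ℝ) (N : ℕ) (z : ℂ) : ℂ :=
  C * riemannZeta (z + 1 / 2) - e * ((invZeta z + defect moebiusC z) / z) - headSum C e N z

variable {C e : ℝ} {N : ℕ}

theorem onLine_re (w : ℝ) : (onLine w).re = 1 / 2 := by simp [onLine]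

theorem onLine_im (w : ℝ) : (onLine w).im = w := by simp [onLine]

theorem onLine_ne_zero (w : ℝ) : onLine w ≠ 0 := fun h => by
  have := congrArg Complex.re h
  simp [onLine_re] at this

theorem onLine_ne_one (w : ℝ) : onLine w ≠ 1 := fun h => by
  have := congrArg Complex.re h
  simp [onLine_re] at this

theorem onLine_zero : onLine 0 = 1 / 2 := by simp [onLine]

theorem conj_onLine (w : ℝ) : conj (onLine w) = onLine (-w) :=
  Complex.ext (by simp [onLine_re]) (by simp [onLine_im])

theorem resid_neg (w : ℝ) : resid (-w) = conj (resid w) := by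
  have hd : deriv riemannZeta (onLine (-w)) = conj (deriv riemannZeta (onLine w)) := by
    have h := (differentiableAt_riemannZeta (onLine_ne_one w)).hasDerivAt.conj_conj
    rw [conj_onLine, show (conj ∘ riemannZeta ∘ conj) = riemannZeta from funext fun z => by
      simp [riemannZeta_conj]] at h
    exact h.deriv
  rw [resid, hd, ← conj_onLine, resid, map_inv₀, map_mul]

theorem norm_moebius_summatory_le (n : ℕ) :
    ‖summatory moebiusC n‖ ≤ 1 * (n : ℝ) ^ (1 : ℝ) :=
  FA.OneSided.norm_sum_le_card moebiusC (fun k => by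
    rw [moebiusC, Complex.norm_intCast]
    exact_mod_cast ArithmeticFunction.abs_moebius_le_one) n

theorem differentiableAt_defect {z : ℂ} (hz : 0 < z.re) :
    DifferentiableAt ℂ (defect moebiusC) z :=
  (FA.OneSided.differentiableOn_defect (fun n _ => norm_moebius_summatory_le n)
    zero_le_one).differentiableAt
    ((isOpen_lt continuous_const continuous_re).mem_nhds
      (show (1 : ℝ) - 1 < z.re by linarith))

theorem differentiableAt_headSum (z : ℂ) : DifferentiableAt ℂ (headSum C e N) z :=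
  DifferentiableAt.fun_sum fun n _ => DifferentiableAt.comp (f := fun w : ℂ => w + 1) z
    (g := fun s => LSeries.term (coeff C e) s n) (FA.Signs.differentiable_term _ n _)
    (differentiableAt_id.add_const 1)

theorem tail_nonneg (hN : ∀ n, N ≤ n → e * moebiusSum n ≤ C * √n) (n : ℕ) :
    0 ≤ tail C e N n := by
  rw [tail]
  split_ifs with h
  · exact le_rfl
  · linarith [hN n (not_lt.1 h)]

/-- The bound gives the zero-free half plane. -/
theorem zero_free (he : e ≠ 0) (hN : ∀ n, N ≤ n → e * moebiusSum n ≤ C * √n) {z : ℂ}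
    (hz : 1 / 2 < z.re) : riemannZeta₁ z ≠ 0 := by
  rcases lt_or_ge z.re 1 with h1 | h1
  · intro h0
    have hne : z ≠ 1 := fun h => by rw [h] at h1; simp at h1
    refine FA.OneSided.moebius_zero_free (α := 1 / 2) (C := C) (by norm_num) (by norm_num) he ?_
      hz h1 (by rw [riemannZeta_eq_inv_sub_mul hne, h0, mul_zero])
    filter_upwards [eventually_ge_atTop N] with n hn
    rw [← Real.sqrt_eq_rpow]
    exact hN n hn
  · exact FA.ZeroFree.riemannZeta₁_ne_zero_of_one_le h1

theorem riemannHypothesis_of_bound (he : e ≠ 0)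
    (hN : ∀ n, N ≤ n → e * moebiusSum n ≤ C * √n) : RiemannHypothesis :=
  FA.OneSided.riemannHypothesis_of_zero_free fun s hs hs1 h0 =>
    zero_free he hN hs (FA.OneSided.zeta₁_eq_zero_of_zeta (fun h => by simp [h] at hs1) h0)

/-- **The series of the tail converges right of the line.** -/
theorem hasSum_tail (hN1 : 1 ≤ N) (he : e ≠ 0)
    (hN : ∀ n, N ≤ n → e * moebiusSum n ≤ C * √n) {z : ℂ} (hz : 1 / 2 < z.re) :
    HasSum (fun n : ℕ => (tail C e N n : ℂ) * exp (-(z + 1) * Real.log n)) (cont C e N z) := by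
  obtain ⟨c, hc⟩ : ∃ c : ℕ → ℂ, c = fun n : ℕ => ((C * √n - e * moebiusSum n : ℝ) : ℂ) :=
    ⟨_, rfl⟩
  obtain ⟨b, hb⟩ : ∃ b : ℕ → ℂ, b = FA.Signs.removed c (Finset.range N) := ⟨_, rfl⟩
  have hbt : ∀ n, b n = (tail C e N n : ℂ) := fun n => by
    rw [hb, FA.Signs.removed, tail, hc]
    simp only [Finset.mem_range]
    split_ifs <;> simp
  have hb0 : 0 ≤ b := fun n => by
    rw [Pi.zero_apply, hbt, Complex.zero_le_real]
    exact tail_nonneg hN n
  have hser : ∀ w : ℂ, 2 < w.re → LSeriesHasSum b w (cont C e N (w - 1)) := by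
    intro w hw
    have hre : 1 < (w - 1).re := by simp; linarith
    have hre2 : 1 < (w - 1 / 2).re := by simp; linarith
    obtain ⟨hsum, hval⟩ := FA.VonKoch.moebius_series hre
    have h1 := FA.OneSided.hasSum_summatory (fun n _ => norm_moebius_summatory_le n) zero_le_one
      le_rfl hre (a := moebiusC) hsum
    have hval' : LSeries moebiusC (w - 1) = invZeta (w - 1) := hval
    rw [hval', sub_add_cancel] at h1
    have hζ : HasSum (fun n : ℕ => LSeries.term 1 (w - 1 / 2) n) (riemannZeta (w - 1 / 2)) := by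
      rw [← LSeries_one_eq_riemannZeta hre2]
      exact (LSeriesSummable_one_iff.2 hre2).LSeriesHasSum
    have hcsum : LSeriesHasSum c w (C * riemannZeta (w - 1 / 2) -
        e * ((invZeta (w - 1) + defect moebiusC (w - 1)) / (w - 1))) := by
      refine ((hζ.mul_left (C : ℂ)).sub (h1.mul_left (e : ℂ))).congr_fun fun n => ?_
      rcases Nat.eq_zero_or_pos n with rfl | hn
      · simp [FA.OneSided.summatory_zero]
      have hn0 : (n : ℂ) ≠ 0 := Nat.cast_ne_zero.2 hn.ne'
      have hM : summatory moebiusC n = ((moebiusSum n : ℝ) : ℂ) := by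
        simp [summatory, moebiusSum, moebiusC]
      rw [LSeries.term_of_ne_zero hn.ne', LSeries.term_of_ne_zero hn.ne', Pi.one_apply, hc, hM]
      push_cast
      rw [Real.sqrt_eq_rpow, ofReal_cpow (Nat.cast_nonneg n), ofReal_natCast, cpow_neg,
        cpow_sub _ _ hn0, one_div_div, show ((1 / 2 : ℝ) : ℂ) = 1 / 2 by push_cast; ring]
      ring
    have h2 := FA.Signs.hasSum_removed (Finset.range N) hcsum.LSeriesSummable
    rw [hcsum.LSeries_eq, ← hb] at h2
    rw [cont, headSum, show w - 1 + 1 / 2 = w - 1 / 2 by ring, sub_add_cancel,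
      show coeff C e = c from hc.symm]
    exact h2
  have hopen : IsOpen {w : ℂ | (3 / 2 : ℝ) < w.re} := isOpen_lt continuous_const continuous_re
  have hd : DifferentiableOn ℂ (fun w => cont C e N (w - 1)) {w | (3 / 2 : ℝ) < w.re} := by
    intro w hw
    have hw' : (1 / 2 : ℝ) < (w - 1).re := by
      have : (3 / 2 : ℝ) < w.re := hw
      simp
      linarith
    have h0 : w - 1 ≠ 0 := fun h => by rw [h] at hw'; norm_num at hw'
    have hne : w - 1 + 1 / 2 ≠ 1 := fun h => by
      have := congrArg Complex.re h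
      simp at this hw'
      norm_num at this
      linarith
    have hk : DifferentiableAt ℂ (cont C e N) (w - 1) := by
      unfold cont
      exact ((((differentiableAt_riemannZeta hne).comp (w - 1)
        (differentiableAt_id.add_const (1 / 2))).const_mul _).fun_sub
          ((((FA.VonKoch.differentiableAt_invZeta (zero_free he hN hw')).add
            (differentiableAt_defect (by linarith))).div differentiableAt_id h0).const_mul _)).sub
        (differentiableAt_headSum _)
    exact (hk.comp w (differentiableAt_id.sub_const 1)).differentiableWithinAt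
  obtain ⟨hs, hv⟩ := FA.OneSided.lSeriesSummable_of_nonneg hb0 (Den := fun _ => 1)
    (fun w hw => (hser w hw).LSeriesSummable)
    (fun w hw => by rw [one_mul, (hser w hw).LSeries_eq])
    hd (differentiableOn_const 1) (fun _ _ => one_ne_zero) (w := z + 1) (by simp; linarith)
  rw [one_mul, add_sub_cancel_right] at hv
  rw [← hv]
  refine hs.LSeriesHasSum.congr_fun fun n => ?_
  rcases Nat.eq_zero_or_pos n with rfl | hn
  · simp [tail, show 0 < N by omega]
  rw [LSeries.term_of_ne_zero hn.ne', hbt, div_eq_mul_inv, ← cpow_neg,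
    cpow_def_of_ne_zero (Nat.cast_ne_zero.2 hn.ne'), natCast_log, mul_comm (log _)]

/-- The value off the real axis is at most the value at the real point. -/
theorem norm_cont_le (hN1 : 1 ≤ N) (he : e ≠ 0)
    (hN : ∀ n, N ≤ n → e * moebiusSum n ≤ C * √n) {z : ℂ} (hz : 1 / 2 < z.re) :
    ‖cont C e N z‖ ≤ (cont C e N (z.re : ℂ)).re := by
  have h1 := hasSum_tail hN1 he hN hz
  have h2 := Complex.hasSum_re (hasSum_tail hN1 he hN (z := (z.re : ℂ)) (by simpa using hz))
  rw [← h1.tsum_eq]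
  refine tsum_of_norm_bounded h2 fun n => le_of_eq ?_
  rw [norm_mul, norm_real, Real.norm_eq_abs, abs_of_nonneg (tail_nonneg hN n), Complex.norm_exp,
    re_ofReal_mul, show -((z.re : ℂ) + 1) * (Real.log n : ℂ) =
      ((-(z.re + 1) * Real.log n : ℝ) : ℂ) by push_cast; ring, ← ofReal_exp,
    ofReal_re, mul_re, ofReal_re, ofReal_im]
  simp [-natCast_log]

/-- Approaching `z₀` from the right. -/
theorem tendsto_shift (z₀ : ℂ) :
    Tendsto (fun δ : ℝ => z₀ + (δ : ℂ)) (𝓝[>] 0) (𝓝 z₀) := by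
  have h : Tendsto (fun δ : ℝ => z₀ + (δ : ℂ)) (𝓝 0) (𝓝 (z₀ + ((0 : ℝ) : ℂ))) :=
    ((by fun_prop : Continuous fun δ : ℝ => z₀ + (δ : ℂ))).tendsto 0
  rw [ofReal_zero, add_zero] at h
  exact h.mono_left nhdsWithin_le_nhds

theorem tendsto_zero_ofReal : Tendsto (fun δ : ℝ => (δ : ℂ)) (𝓝[>] 0) (𝓝 0) := by
  simpa using tendsto_shift 0

/-- A function continuous at the limit point is killed by `δ`. -/
theorem tendsto_mul_of_continuousAt {f : ℂ → ℂ} {z₀ : ℂ} (hf : ContinuousAt f z₀) :
    Tendsto (fun δ : ℝ => (δ : ℂ) * f (z₀ + δ)) (𝓝[>] 0) (𝓝 0) := by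
  simpa using tendsto_zero_ofReal.mul (hf.tendsto.comp (tendsto_shift z₀))

theorem eventually_invZeta {z₀ : ℂ} (h : z₀ ≠ 1) :
    ∀ᶠ δ : ℝ in 𝓝[>] 0, invZeta (z₀ + δ) = (riemannZeta (z₀ + δ))⁻¹ :=
  (tendsto_shift z₀).eventually_ne h |>.mono fun _ hδ => invZeta_eq hδ

theorem tendsto_slope_zeta {w : ℝ} (hz : riemannZeta (onLine w) = 0) :
    Tendsto (fun δ : ℝ => (δ : ℂ)⁻¹ * riemannZeta (onLine w + δ)) (𝓝[>] 0)
      (𝓝 (deriv riemannZeta (onLine w))) := by
  have h := (differentiableAt_riemannZeta (onLine_ne_one w)).hasDerivAt.tendsto_slope_zero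
  simp only [hz, sub_zero, smul_eq_mul] at h
  refine h.comp (tendsto_nhdsWithin_of_tendsto_nhds_of_eventually_within _ tendsto_zero_ofReal
    (eventually_mem_nhdsWithin.mono fun δ (hδ : (0 : ℝ) < δ) => ?_))
  simp [hδ.ne']

/-- `δ / ζ (z₀ + δ)` off the zeros. -/
theorem tendsto_invZeta_regular {w : ℝ} (hz : riemannZeta (onLine w) ≠ 0) :
    Tendsto (fun δ : ℝ => (δ : ℂ) * invZeta (onLine w + δ)) (𝓝[>] 0) (𝓝 0) :=
  tendsto_mul_of_continuousAt ((FA.VonKoch.differentiableAt_invZeta fun h => hz (by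
    rw [riemannZeta_eq_inv_sub_mul (onLine_ne_one w), h, mul_zero])).continuousAt)

/-- `δ / ζ (ρ + δ)` at a simple zero. -/
theorem tendsto_invZeta_simple {w : ℝ} (hz : riemannZeta (onLine w) = 0)
    (hd : deriv riemannZeta (onLine w) ≠ 0) :
    Tendsto (fun δ : ℝ => (δ : ℂ) * invZeta (onLine w + δ)) (𝓝[>] 0)
      (𝓝 (deriv riemannZeta (onLine w))⁻¹) :=
  ((tendsto_slope_zeta hz).inv₀ hd).congr' ((eventually_invZeta (onLine_ne_one w)).mono
    fun δ hδ => by simp only [hδ, mul_inv, inv_inv])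

/-- `δ` times the parts without `1 / ζ`. -/
theorem tendsto_rest (w : ℝ) :
    Tendsto (fun δ : ℝ => (δ : ℂ) * (C * riemannZeta (onLine w + δ + 1 / 2) -
      headSum C e N (onLine w + δ))) (𝓝[>] 0) (𝓝 (if w = 0 then (C : ℂ) else 0)) := by
  have hz : Tendsto (fun δ : ℝ => (δ : ℂ) * riemannZeta (onLine w + δ + 1 / 2)) (𝓝[>] 0)
      (𝓝 (if w = 0 then 1 else 0)) := by
    split_ifs with hw
    · subst hw
      have h1 : Tendsto (fun δ : ℝ => (1 : ℂ) + δ) (𝓝[>] 0) (𝓝[≠] (1 : ℂ)) :=
        tendsto_nhdsWithin_of_tendsto_nhds_of_eventually_within _ (tendsto_shift 1)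
          (eventually_mem_nhdsWithin.mono fun δ (hδ : (0 : ℝ) < δ) => by simp [hδ.ne'])
      refine (riemannZeta_residue_one.comp h1).congr fun δ => ?_
      rw [Function.comp_apply, onLine_zero, add_sub_cancel_left,
        show (1 : ℂ) / 2 + δ + 1 / 2 = 1 + δ by ring]
    · refine tendsto_mul_of_continuousAt (f := fun z => riemannZeta (z + 1 / 2))
        ((differentiableAt_riemannZeta fun h1 => ?_).comp _
          (differentiableAt_id.add_const (1 / 2))).continuousAt
      exact hw (by simpa [onLine_im] using congrArg Complex.im h1)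
  have hP := tendsto_mul_of_continuousAt (f := headSum C e N) (z₀ := onLine w)
    (differentiableAt_headSum (C := C) (e := e) (N := N) _).continuousAt
  have hall := (hz.const_mul (C : ℂ)).sub hP
  rw [sub_zero, mul_ite, mul_one, mul_zero] at hall
  exact hall.congr fun δ => by ring

theorem tendsto_defect (w : ℝ) :
    Tendsto (fun δ : ℝ => (δ : ℂ) * defect moebiusC (onLine w + δ)) (𝓝[>] 0) (𝓝 0) :=
  tendsto_mul_of_continuousAt
    (differentiableAt_defect (z := onLine w) (by rw [onLine_re]; norm_num)).continuousAt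

/-- `δ` times the continued series near `1/2 + i w`. -/
theorem tendsto_cont {w : ℝ} {L : ℂ}
    (h : Tendsto (fun δ : ℝ => (δ : ℂ) * invZeta (onLine w + δ)) (𝓝[>] 0) (𝓝 L)) :
    Tendsto (fun δ : ℝ => (δ : ℂ) * cont C e N (onLine w + δ)) (𝓝[>] 0)
      (𝓝 ((if w = 0 then (C : ℂ) else 0) - e * (L / onLine w))) := by
  have hall := (tendsto_rest (C := C) (e := e) (N := N) w).sub
    (((h.add (tendsto_defect w)).div (tendsto_shift (onLine w)) (onLine_ne_zero w)).const_mul
      (e : ℂ))
  rw [add_zero] at hall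
  refine hall.congr fun δ => ?_
  rw [cont]
  simp only [Pi.div_apply]
  ring

theorem zeta_half_ne_zero : riemannZeta (onLine 0) ≠ 0 := fun h => by
  have := FA.OneSided.zeta₁_eq_zero_of_zeta (onLine_ne_one 0) h
  rw [onLine_zero] at this
  exact FA.PsiOscillation.riemannZeta₁_real_ne_zero (x := 1 / 2) (by norm_num)
    (by push_cast; exact this)

theorem tendsto_cont_zero :
    Tendsto (fun δ : ℝ => (δ : ℂ) * cont C e N (onLine 0 + δ)) (𝓝[>] 0) (𝓝 (C : ℂ)) := by
  simpa using tendsto_cont (C := C) (e := e) (N := N)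
    (tendsto_invZeta_regular zeta_half_ne_zero)

theorem eventually_mul_norm_le (hN1 : 1 ≤ N) (he : e ≠ 0)
    (hN : ∀ n, N ≤ n → e * moebiusSum n ≤ C * √n) (w : ℝ) :
    ∀ᶠ δ : ℝ in 𝓝[>] 0,
      ‖(δ : ℂ) * cont C e N (onLine w + δ)‖ ≤ ((δ : ℂ) * cont C e N (onLine 0 + δ)).re := by
  filter_upwards [eventually_mem_nhdsWithin] with δ hδ
  have hδ0 : (0 : ℝ) < δ := hδ
  have h := norm_cont_le hN1 he hN (z := onLine w + δ) (by simp [onLine_re]; linarith)
  rw [show (((onLine w + δ).re : ℝ) : ℂ) = onLine 0 + δ by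
    simp [onLine_re, onLine_zero]] at h
  rw [norm_mul, norm_real, Real.norm_eq_abs, abs_of_pos hδ0, re_ofReal_mul]
  exact mul_le_mul_of_nonneg_left h hδ0.le

/-- **The zeros on the line are simple.** -/
theorem deriv_ne_zero (hN1 : 1 ≤ N) (he : e ≠ 0)
    (hN : ∀ n, N ≤ n → e * moebiusSum n ≤ C * √n) {w : ℝ} (hw : w ≠ 0)
    (hz : riemannZeta (onLine w) = 0) : deriv riemannZeta (onLine w) ≠ 0 := by
  intro hd
  have hs := tendsto_slope_zeta hz
  rw [hd] at hs
  have e0 : Tendsto (fun δ : ℝ => (δ : ℂ) * (C * riemannZeta (onLine w + δ + 1 / 2) -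
      headSum C e N (onLine w + δ))) (𝓝[>] 0) (𝓝 0) := by
    simpa [hw] using tendsto_rest (C := C) (e := e) (N := N) w
  have hD := tendsto_defect w
  have hz0 := tendsto_shift (onLine w)
  have hre := (Complex.continuous_re.tendsto _).comp (tendsto_cont_zero (C := C) (e := e) (N := N))
  have hbd : ∀ᶠ δ : ℝ in 𝓝[>] 0,
      ‖(δ : ℂ) * invZeta (onLine w + δ)‖ ≤ (‖onLine w‖ + 1) * ((C + 2) / |e|) + 1 := by
    filter_upwards [eventually_mul_norm_le hN1 he hN w,
      hre.eventually_lt_const (show ((C : ℂ)).re < C + 1 by simp),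
      (tendsto_norm_zero.comp e0).eventually_lt_const zero_lt_one,
      (tendsto_norm_zero.comp hD).eventually_lt_const zero_lt_one,
      hz0.norm.eventually_lt_const (show ‖onLine w‖ < ‖onLine w‖ + 1 by linarith),
      hz0.eventually_ne (onLine_ne_zero w)] with δ h1 h2 h3 h4 h5 h6
    simp only [Function.comp_apply] at h2 h3 h4
    obtain ⟨X, hX⟩ : ∃ X : ℂ, X = (δ : ℂ) * invZeta (onLine w + δ) := ⟨_, rfl⟩
    obtain ⟨R, hR⟩ : ∃ R : ℂ, R = (δ : ℂ) * (C * riemannZeta (onLine w + δ + 1 / 2) -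
        headSum C e N (onLine w + δ)) := ⟨_, rfl⟩
    obtain ⟨D, hD'⟩ : ∃ D : ℂ, D = (δ : ℂ) * defect moebiusC (onLine w + δ) := ⟨_, rfl⟩
    rw [← hR] at h3
    rw [← hD'] at h4
    rw [← hX]
    have hK : (δ : ℂ) * cont C e N (onLine w + δ) = R - e * ((X + D) / (onLine w + δ)) := by
      rw [hR, hX, hD', cont]
      ring
    rw [hK] at h1
    have hQ : ‖(e : ℂ) * ((X + D) / (onLine w + δ))‖ ≤ C + 2 := by
      have := norm_sub_norm_le ((e : ℂ) * ((X + D) / (onLine w + δ))) R
      rw [norm_sub_rev] at h1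
      linarith
    have hA : ‖X + D‖ = ‖onLine w + (δ : ℂ)‖ * (‖(e : ℂ) * ((X + D) / (onLine w + δ))‖ / |e|) := by
      rw [norm_mul, norm_div, norm_real, Real.norm_eq_abs]
      have := norm_ne_zero_iff.2 h6
      have := abs_ne_zero.2 he
      field_simp
    have hXD : ‖X‖ ≤ ‖X + D‖ + ‖D‖ := by simpa using norm_sub_le (X + D) D
    have : ‖X + D‖ ≤ (‖onLine w‖ + 1) * ((C + 2) / |e|) := by
      rw [hA]
      exact mul_le_mul h5.le (div_le_div_of_nonneg_right hQ (abs_nonneg e)) (by positivity)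
        (by positivity)
    linarith
  obtain ⟨K, hK⟩ : ∃ K, K = (‖onLine w‖ + 1) * ((C + 2) / |e|) + 1 := ⟨_, rfl⟩
  rw [← hK] at hbd
  have hK1 : Tendsto (fun δ : ℝ => K * ‖(δ : ℂ)⁻¹ * riemannZeta (onLine w + δ)‖) (𝓝[>] 0)
      (𝓝 0) := by simpa using (tendsto_norm_zero.comp hs).const_mul K
  obtain ⟨δ, ⟨hδ, h1⟩, h2, h3⟩ := ((eventually_mem_nhdsWithin.and hbd).and
    ((hK1.eventually_lt_const zero_lt_one).and (eventually_invZeta (onLine_ne_one w)))).exists
  have hδ0 : (0 : ℝ) < δ := hδ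
  rw [h3] at h1
  have hne : riemannZeta (onLine w + δ) ≠ 0 := fun h0 =>
    zero_free he hN (z := onLine w + δ) (by simp [onLine_re]; linarith)
      (FA.OneSided.zeta₁_eq_zero_of_zeta (fun h => hw (by
        simpa [onLine_im] using congrArg Complex.im h)) h0)
  have h4 := mul_le_mul_of_nonneg_right h1 (norm_nonneg ((δ : ℂ)⁻¹ * riemannZeta (onLine w + δ)))
  rw [← norm_mul, show (δ : ℂ) * (riemannZeta (onLine w + δ))⁻¹ *
    ((δ : ℂ)⁻¹ * riemannZeta (onLine w + δ)) = 1 by
      have : (δ : ℂ) ≠ 0 := ofReal_ne_zero.2 hδ0.ne'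
      field_simp, norm_one] at h4
  linarith

/-- **The bound at a simple zero.** -/
theorem resid_le (hN1 : 1 ≤ N) (he : e ≠ 0)
    (hN : ∀ n, N ≤ n → e * moebiusSum n ≤ C * √n) {w : ℝ} (hw : w ≠ 0)
    (hz : riemannZeta (onLine w) = 0) : |e| * ‖resid w‖ ≤ C := by
  have h1 := (tendsto_cont (C := C) (e := e) (N := N)
    (tendsto_invZeta_simple hz (deriv_ne_zero hN1 he hN hw hz))).norm
  have h2 := (Complex.continuous_re.tendsto _).comp (tendsto_cont_zero (C := C) (e := e) (N := N))
  have h := le_of_tendsto_of_tendsto h1 h2 (eventually_mul_norm_le hN1 he hN w)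
  rwa [if_neg hw, zero_sub, norm_neg, norm_mul, norm_real, Real.norm_eq_abs, ofReal_re,
    div_eq_mul_inv, ← mul_inv, mul_comm _ (onLine w), ← resid] at h

end FA.MertensOmega

end
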